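/-
PROGRAMME MW (S17), block EMB (helper6).  `Value6` = (E0): the VALUE of a function at a place.

Setting: `F / K` with the hypotheses `H : LSpace.LHyp K F` of `RR/LSpace` (every place has residue
field `K`, degree one, principal divisors exist).

* `resBij H v`   : `algebraMap K κ(v)` is bijective;
* `val H v : O_v →+* K` : the value map `f ↦ f(v)`;  `val_algebraMap`, `val_eq_zero_iff`,
  `val_eq_zero_iff_ord`, `ord_sub_val_pos`, `val_unique`;
* `valF H v : F → K` : the value of `f` at `v`, `0` if `f` has a pole at `v`;
  `valF_of_mem`, `valF_algebraMap`, `valF_add`, `valF_mul`, `valF_smul`, `valF_sum`,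
  `valF_eq_zero_iff`, `valF_unique`, `valF_zero`, `valF_one`, `valF_neg`, `valF_sub`, `valF_pow`.
-/
import Mathlib
import Fermat.Agent.RR.LSpace

set_option autoImplicit false
set_option linter.unusedSectionVars false

open AlgebraicCurve

namespace Fermat.Agent.MW.EMB.Value6

open Fermat.Agent.X0.FF Fermat.Agent.RR.LSpace

variable {K F : Type*} [Field K] [Field F] [Algebra K F]

/-- The residue field of a place is the constant field. -/
theorem resBij (H : LHyp K F) (v : Place K F) :
    Function.Bijective (algebraMap K v.ResidueField) := by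
  refine ⟨(algebraMap K v.ResidueField).injective, fun r => ?_⟩
  obtain ⟨a, rfl⟩ := IsLocalRing.residue_surjective r
  obtain ⟨c, hc | hc⟩ := H.residue v (a : F) a.2
  · refine ⟨c, ?_⟩
    have : a = algebraMap K v.toValuationSubring c := Subtype.ext hc
    rw [this]; rfl
  · refine ⟨c, ?_⟩
    have hne : a - algebraMap K v.toValuationSubring c ≠ 0 := by
      intro h0
      have : ((a - algebraMap K v.toValuationSubring c : v.toValuationSubring) : F) = 0 := by
        rw [h0]; rfl
      have h1 : (a : F) - algebraMap K F c = 0 := by simpa using this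
      rw [h1] at hc; simp at hc
    have hmem : a - algebraMap K v.toValuationSubring c ∈
        IsLocalRing.maximalIdeal v.toValuationSubring := by
      rw [ffp_mem_maximalIdeal_iff v _ hne]
      simpa using hc
    have h2 := (IsLocalRing.residue_eq_zero_iff _).mpr hmem
    rw [map_sub, sub_eq_zero] at h2
    rw [h2]; rfl

/-- `K ≃ κ(v)`. -/
noncomputable def resEquiv (H : LHyp K F) (v : Place K F) : K ≃+* v.ResidueField :=
  RingEquiv.ofBijective (algebraMap K v.ResidueField) (resBij H v)

/-- The value map `f ↦ f(v)` on the valuation ring of `v`. -/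
noncomputable def val (H : LHyp K F) (v : Place K F) : v.toValuationSubring →+* K :=
  ((resEquiv H v).symm : v.ResidueField →+* K).comp (IsLocalRing.residue v.toValuationSubring)

theorem val_algebraMap (H : LHyp K F) (v : Place K F) (c : K) :
    val H v (algebraMap K v.toValuationSubring c) = c := by
  show (resEquiv H v).symm ((resEquiv H v) c) = c
  exact RingEquiv.symm_apply_apply _ _

theorem val_eq_zero_iff (H : LHyp K F) (v : Place K F) (a : v.toValuationSubring) :
    val H v a = 0 ↔ a ∈ IsLocalRing.maximalIdeal v.toValuationSubring := by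
  rw [← IsLocalRing.residue_eq_zero_iff]
  show (resEquiv H v).symm (IsLocalRing.residue _ a) = 0 ↔ _
  exact map_eq_zero_iff _ (resEquiv H v).symm.injective

theorem val_eq_zero_iff_ord (H : LHyp K F) (v : Place K F) (a : v.toValuationSubring) :
    val H v a = 0 ↔ (a : F) = 0 ∨ 0 < v.ord (a : F) := by
  rw [val_eq_zero_iff]
  by_cases ha : a = 0
  · subst ha; simp
  · rw [ffp_mem_maximalIdeal_iff v a ha]
    constructor
    · intro h; exact Or.inr h
    · rintro (h | h)
      · exact absurd (Subtype.ext h) ha
      · exact h

/-- `f - f(v)` vanishes at `v`. -/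
theorem sub_val_mem (H : LHyp K F) (v : Place K F) (a : v.toValuationSubring) :
    a - algebraMap K v.toValuationSubring (val H v a) ∈
      IsLocalRing.maximalIdeal v.toValuationSubring := by
  rw [← val_eq_zero_iff H v, map_sub, val_algebraMap, sub_self]

theorem ord_sub_val_pos (H : LHyp K F) (v : Place K F) (a : v.toValuationSubring)
    (hne : (a : F) ≠ algebraMap K F (val H v a)) :
    0 < v.ord ((a : F) - algebraMap K F (val H v a)) := by
  have h := sub_val_mem H v a
  have hne' : a - algebraMap K v.toValuationSubring (val H v a) ≠ 0 := by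
    intro h0
    apply hne
    have := congrArg (Subtype.val) (sub_eq_zero.mp h0)
    simpa using this
  have := (ffp_mem_maximalIdeal_iff v _ hne').mp h
  simpa using this

theorem val_unique (H : LHyp K F) (v : Place K F) (a : v.toValuationSubring) (c : K)
    (hc : (a : F) = algebraMap K F c ∨ 0 < v.ord ((a : F) - algebraMap K F c)) :
    val H v a = c := by
  have h1 : val H v (a - algebraMap K v.toValuationSubring c) = 0 := by
    rw [val_eq_zero_iff_ord]
    rcases hc with h | h
    · left; simp [h]
    · right; simpa using h
  rw [map_sub, val_algebraMap, sub_eq_zero] at h1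
  exact h1

/-- The value of `f` at `v`; `0` if `f` has a pole at `v`. -/
noncomputable def valF (H : LHyp K F) (v : Place K F) (f : F) : K := by
  classical
  exact if h : f ∈ v.toValuationSubring then val H v ⟨f, h⟩ else 0

theorem valF_of_mem (H : LHyp K F) (v : Place K F) {f : F} (h : f ∈ v.toValuationSubring) :
    valF H v f = val H v ⟨f, h⟩ := by
  classical
  unfold valF
  rw [dif_pos h]

theorem valF_of_not_mem (H : LHyp K F) (v : Place K F) {f : F} (h : f ∉ v.toValuationSubring) :
    valF H v f = 0 := by
  classical
  unfold valF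
  rw [dif_neg h]

theorem valF_algebraMap (H : LHyp K F) (v : Place K F) (c : K) :
    valF H v (algebraMap K F c) = c := by
  rw [valF_of_mem H v (v.algebraMap_mem' c)]
  exact val_algebraMap H v c

@[simp] theorem valF_zero (H : LHyp K F) (v : Place K F) : valF H v (0 : F) = 0 := by
  have := valF_algebraMap H v (0 : K)
  simpa using this

@[simp] theorem valF_one (H : LHyp K F) (v : Place K F) : valF H v (1 : F) = 1 := by
  have := valF_algebraMap H v (1 : K)
  simpa using this

theorem valF_add (H : LHyp K F) (v : Place K F) {f g : F} (hf : f ∈ v.toValuationSubring)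
    (hg : g ∈ v.toValuationSubring) : valF H v (f + g) = valF H v f + valF H v g := by
  rw [valF_of_mem H v hf, valF_of_mem H v hg, valF_of_mem H v (add_mem hf hg), ← map_add]
  rfl

theorem valF_mul (H : LHyp K F) (v : Place K F) {f g : F} (hf : f ∈ v.toValuationSubring)
    (hg : g ∈ v.toValuationSubring) : valF H v (f * g) = valF H v f * valF H v g := by
  rw [valF_of_mem H v hf, valF_of_mem H v hg, valF_of_mem H v (mul_mem hf hg), ← map_mul]
  rfl

theorem valF_neg (H : LHyp K F) (v : Place K F) {f : F} (hf : f ∈ v.toValuationSubring) :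
    valF H v (-f) = -valF H v f := by
  rw [valF_of_mem H v hf, valF_of_mem H v (neg_mem hf), ← map_neg]
  rfl

theorem valF_sub (H : LHyp K F) (v : Place K F) {f g : F} (hf : f ∈ v.toValuationSubring)
    (hg : g ∈ v.toValuationSubring) : valF H v (f - g) = valF H v f - valF H v g := by
  rw [sub_eq_add_neg, valF_add H v hf (neg_mem hg), valF_neg H v hg, sub_eq_add_neg]

theorem valF_smul (H : LHyp K F) (v : Place K F) (c : K) {f : F}
    (hf : f ∈ v.toValuationSubring) : valF H v (c • f) = c * valF H v f := by
  rw [Algebra.smul_def, valF_mul H v (v.algebraMap_mem' c) hf, valF_algebraMap]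

theorem valF_pow (H : LHyp K F) (v : Place K F) {f : F} (hf : f ∈ v.toValuationSubring) (n : ℕ) :
    valF H v (f ^ n) = valF H v f ^ n := by
  induction n with
  | zero => simp
  | succ n ih => rw [pow_succ, valF_mul H v (pow_mem hf n) hf, ih, pow_succ]

theorem valF_sum (H : LHyp K F) (v : Place K F) {ι : Type*} (s : Finset ι) (f : ι → F)
    (hf : ∀ i ∈ s, f i ∈ v.toValuationSubring) :
    valF H v (∑ i ∈ s, f i) = ∑ i ∈ s, valF H v (f i) := by
  classical
  induction s using Finset.induction_on with
  | empty => simp
  | insert a s ha ih =>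
    rw [Finset.sum_insert ha, Finset.sum_insert ha,
      valF_add H v (hf a (Finset.mem_insert_self a s))
        (sum_mem fun i hi => hf i (Finset.mem_insert_of_mem hi)),
      ih fun i hi => hf i (Finset.mem_insert_of_mem hi)]

theorem valF_eq_zero_iff (H : LHyp K F) (v : Place K F) {f : F} (hf : f ∈ v.toValuationSubring) :
    valF H v f = 0 ↔ f = 0 ∨ 0 < v.ord f := by
  rw [valF_of_mem H v hf, val_eq_zero_iff_ord]

theorem valF_unique (H : LHyp K F) (v : Place K F) {f : F} (hf : f ∈ v.toValuationSubring) (c : K)
    (hc : f = algebraMap K F c ∨ 0 < v.ord (f - algebraMap K F c)) : valF H v f = c := by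
  rw [valF_of_mem H v hf]
  exact val_unique H v ⟨f, hf⟩ c hc

/-- `f - f(v)` vanishes at `v`. -/
theorem ord_sub_valF_pos (H : LHyp K F) (v : Place K F) {f : F} (hf : f ∈ v.toValuationSubring)
    (hne : f ≠ algebraMap K F (valF H v f)) : 0 < v.ord (f - algebraMap K F (valF H v f)) := by
  rw [valF_of_mem H v hf] at hne ⊢
  exact ord_sub_val_pos H v ⟨f, hf⟩ hne

/-- A unit at `v` has nonzero value. -/
theorem valF_ne_zero_of_ord_eq_zero (H : LHyp K F) (v : Place K F) {f : F} (hf0 : f ≠ 0)
    (hf : v.ord f = 0) : valF H v f ≠ 0 := by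
  have hmem : f ∈ v.toValuationSubring := ffp_mem_of_ord_nonneg v (by omega)
  rw [Ne, valF_eq_zero_iff H v hmem]
  rintro (h | h)
  · exact hf0 h
  · omega

end Fermat.Agent.MW.EMB.Value6
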