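/-
PROGRAMME MW (S17), block EMB (helper6).  `OnePoint6` = (E1): the spaces `L(m·P0)` of functions
with a pole of order `≤ m` at one place `P0` and no other pole.

Setting: `F / K` function field with a transcendental generator (`hx : IsGen K x`), `K`
algebraically closed of characteristic zero, `[HasCanonicalDivisor]` (= the setting of `RR/RRMain`),
`P0 : Place K F`, `g = genus K F`.

* `mP P0 m : Divisor K F := single P0 m`, `degree_mP`, `Lm P0 m := riemannRochSpace (mP P0 m)`;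
* `mem_Lm_iff`, `Lm_mono`, `mul_mem_Lm`, `one_mem_Lm`, `mem_valuationSubring_of_mem_Lm`,
  `pow_mul_mem_valuationSubring` (trivialisation at `P0` by `t0 ^ m`);
* `finrank_Lm : 2g - 1 ≤ m → finrank K (Lm P0 m) = m + 1 - g`;
* `exists_pole_order : 2g ≤ m → ∃ f ∈ Lm P0 m, f ≠ 0 ∧ P0.ord f = -m`;
* `finrank_L_sub_single`, `finrank_L_sub_two` : `ℓ(D - v) = ℓ(D) - 1`, `ℓ(D - v - w) = ℓ(D) - 2` for
  `deg D` large (base-point-freeness, separation of points and tangents).
-/
import Mathlib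
import Fermat.Agent.RR.RRMain
import Fermat.Agent.RR.LHypGen

set_option autoImplicit false
set_option linter.unusedSectionVars false

open AlgebraicCurve

namespace Fermat.Agent.MW.EMB.OnePoint6

open Fermat.Agent.X0.FF Fermat.Agent.RR.LSpace Fermat.Agent.RR.LHypGen

variable {K F : Type*} [Field K] [Field F] [Algebra K F]

/-- The divisor `m · P0`. -/
noncomputable def mP (P0 : Place K F) (m : ℕ) : Divisor K F := Finsupp.single P0 (m : ℤ)

/-- `L(m · P0)`. -/
noncomputable abbrev Lm (P0 : Place K F) (m : ℕ) : Submodule K F := riemannRochSpace (mP P0 m)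

theorem mP_apply_self (P0 : Place K F) (m : ℕ) : mP P0 m P0 = m := by
  simp [mP]

theorem mP_apply_of_ne (P0 : Place K F) (m : ℕ) {v : Place K F} (hv : v ≠ P0) : mP P0 m v = 0 := by
  simp [mP, Ne.symm hv]

theorem degree_mP (H : LHyp K F) (P0 : Place K F) (m : ℕ) : Divisor.degree (mP P0 m) = m :=
  degree_single H P0 m

theorem mP_add (P0 : Place K F) (a b : ℕ) : mP P0 (a + b) = mP P0 a + mP P0 b := by
  simp [mP, Finsupp.single_add]

theorem mem_Lm_iff (P0 : Place K F) (m : ℕ) {f : F} (hf : f ≠ 0) :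
    f ∈ Lm P0 m ↔ -(m : ℤ) ≤ P0.ord f ∧ ∀ v : Place K F, v ≠ P0 → 0 ≤ v.ord f := by
  rw [mem_L_iff hf]
  constructor
  · intro h
    refine ⟨by simpa [mP_apply_self] using h P0, fun v hv => ?_⟩
    have := h v
    rwa [mP_apply_of_ne P0 m hv, neg_zero] at this
  · rintro ⟨h1, h2⟩ v
    by_cases hv : v = P0
    · subst hv; simpa [mP_apply_self] using h1
    · rw [mP_apply_of_ne P0 m hv, neg_zero]; exact h2 v hv

theorem Lm_mono (P0 : Place K F) {m m' : ℕ} (h : m ≤ m') : Lm P0 m ≤ Lm P0 m' := by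
  apply L_mono
  intro v
  by_cases hv : v = P0
  · subst hv; simp only [mP_apply_self]; exact_mod_cast h
  · rw [mP_apply_of_ne P0 m hv, mP_apply_of_ne P0 m' hv]

theorem one_mem_Lm (P0 : Place K F) (m : ℕ) : (1 : F) ∈ Lm P0 m := by
  rw [mem_Lm_iff P0 m one_ne_zero]
  simp

theorem algebraMap_mem_Lm (P0 : Place K F) (m : ℕ) (c : K) : algebraMap K F c ∈ Lm P0 m := by
  have := (Lm P0 m).smul_mem c (one_mem_Lm P0 m)
  rwa [Algebra.smul_def, mul_one] at this

theorem mul_mem_Lm (P0 : Place K F) {a b : ℕ} {f f' : F} (hf : f ∈ Lm P0 a) (hf' : f' ∈ Lm P0 b) :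
    f * f' ∈ Lm P0 (a + b) := by
  rcases eq_or_ne f 0 with rfl | h0
  · simp
  rcases eq_or_ne f' 0 with rfl | h0'
  · simp
  rw [mem_Lm_iff P0 _ (mul_ne_zero h0 h0')]
  rw [mem_Lm_iff P0 _ h0] at hf
  rw [mem_Lm_iff P0 _ h0'] at hf'
  refine ⟨?_, fun v hv => ?_⟩
  · rw [P0.ord_mul h0 h0']; push_cast; linarith [hf.1, hf'.1]
  · rw [v.ord_mul h0 h0']; linarith [hf.2 v hv, hf'.2 v hv]

theorem pow_mem_Lm (P0 : Place K F) {a : ℕ} {f : F} (hf : f ∈ Lm P0 a) (k : ℕ) :
    f ^ k ∈ Lm P0 (k * a) := by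
  induction k with
  | zero => simpa using one_mem_Lm P0 0
  | succ k ih =>
    have := mul_mem_Lm P0 ih hf
    rwa [← pow_succ, show k * a + a = (k + 1) * a by ring] at this

/-- Functions in `L(m·P0)` are regular away from `P0`. -/
theorem mem_valuationSubring_of_mem_Lm (P0 : Place K F) {m : ℕ} {f : F} (hf : f ∈ Lm P0 m)
    {v : Place K F} (hv : v ≠ P0) : f ∈ v.toValuationSubring := by
  rcases eq_or_ne f 0 with rfl | h0
  · exact zero_mem _
  exact ffp_mem_of_ord_nonneg v (((mem_Lm_iff P0 m h0).mp hf).2 v hv)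

/-- Trivialisation at `P0`: `t0 ^ m * f` is regular at `P0` for `f ∈ L(m·P0)`, `ord t0 = 1`. -/
theorem pow_mul_mem_valuationSubring (P0 : Place K F) {m : ℕ} {f : F} (hf : f ∈ Lm P0 m)
    {t0 : F} (ht0 : P0.ord t0 = 1) : t0 ^ m * f ∈ P0.toValuationSubring := by
  rcases eq_or_ne f 0 with rfl | h0
  · simp
  have ht00 : t0 ≠ 0 := by rintro rfl; simp at ht0
  apply ffp_mem_of_ord_nonneg
  rw [P0.ord_mul (pow_ne_zero m ht00) h0]
  have h1 : P0.ord (t0 ^ m) = m := by
    have := P0.ord_zpow t0 (m : ℤ)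
    rw [zpow_natCast, ht0, mul_one] at this
    exact this
  rw [h1]
  linarith [((mem_Lm_iff P0 m h0).mp hf).1]

theorem ord_pow_uniformizer (v : Place K F) {t : F} (ht : v.ord t = 1) (m : ℕ) :
    v.ord (t ^ m) = m := by
  have := v.ord_zpow t (m : ℤ)
  rw [zpow_natCast, ht, mul_one] at this
  exact this

section RR

variable [IsAlgClosed K] [CharZero K] {x : F} [HasCanonicalDivisor (K := K) (F := F)]

/-- `ℓ(m·P0) = m + 1 - g` for `m ≥ 2g - 1`. -/
theorem finrank_Lm (hx : IsGen K x) (P0 : Place K F) {m : ℕ}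
    (hm : 2 * (genus K F : ℤ) - 1 ≤ m) :
    (Module.finrank K (Lm P0 m) : ℤ) = m + 1 - genus K F := by
  have h := Fermat.Agent.RR.RRMain.finrank_L_of_degree_gt hx (mP P0 m)
    (by rw [degree_mP (lHyp_of_isGen hx)]; omega)
  rw [degree_mP (lHyp_of_isGen hx)] at h
  exact h

/-- `ℓ(D) = deg D + 1 - g` for `deg D > 2g - 2` (restating `RRMain`). -/
theorem finrank_L (hx : IsGen K x) (D : Divisor K F)
    (hD : 2 * (genus K F : ℤ) - 2 < Divisor.degree D) :
    (Module.finrank K (riemannRochSpace D) : ℤ) = Divisor.degree D + 1 - genus K F :=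
  Fermat.Agent.RR.RRMain.finrank_L_of_degree_gt hx D hD

/-- Strict growth: for `m ≥ 2g` there is a function with a pole of exact order `m` at `P0`. -/
theorem exists_pole_order (hx : IsGen K x) (P0 : Place K F) {m : ℕ}
    (hm : 2 * (genus K F : ℤ) ≤ m) :
    ∃ f ∈ Lm P0 m, f ≠ 0 ∧ P0.ord f = -(m : ℤ) := by
  rcases Nat.eq_zero_or_pos m with rfl | hm1
  · exact ⟨1, one_mem_Lm P0 0, one_ne_zero, by simp⟩
  obtain ⟨m', rfl⟩ : ∃ m', m = m' + 1 := ⟨m - 1, by omega⟩
  have h1 := finrank_Lm hx P0 (m := m' + 1) (by omega)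
  have h2 := finrank_Lm hx P0 (m := m') (by push_cast at hm ⊢; omega)
  have := Fermat.Agent.RR.RRMain.finiteDimensional_L hx (mP P0 (m' + 1))
  have hlt : Lm P0 m' < Lm P0 (m' + 1) := by
    refine lt_of_le_of_ne (Lm_mono P0 (Nat.le_succ m')) fun heq => ?_
    rw [heq] at h2
    push_cast at h1 h2
    omega
  obtain ⟨f, hf, hnf⟩ := SetLike.exists_of_lt hlt
  have hf0 : f ≠ 0 := by rintro rfl; exact hnf (zero_mem _)
  refine ⟨f, hf, hf0, ?_⟩
  have h3 := (mem_Lm_iff P0 _ hf0).mp hf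
  by_contra hne
  apply hnf
  rw [mem_Lm_iff P0 _ hf0]
  refine ⟨?_, h3.2⟩
  have := h3.1
  push_cast at this hne ⊢
  omega

end RR

end Fermat.Agent.MW.EMB.OnePoint6
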