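/-
PROGRAMME MW (S17), block EMB (helper6).  `Coord6` = (E2), part 1: the EVALUATION FUNCTIONALS of the
embedding of the curve by the complete linear system `|d·P0|`.

Setting as in `OnePoint6` (`hx : IsGen K x`, RR), `P0 : Place K F`, `t0 : F` with `P0.ord t0 = 1`,
`d : ℕ`.  A function `f ∈ L(d·P0)` is a section of `O(d·P0)`; its value at a place `v` is the value
of the trivialised function `triv v * f`, `triv v = t0 ^ d` at `P0` and `1` elsewhere.

* `triv P0 d t0 v : F`, `triv_ne_zero`, `ord_triv`, `triv_mul_mem`;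
* `ev v : Lm P0 d →ₗ[K] K` (value of the section at `v`), `ev_apply`, `ev_one`;
* `ordSec v f : ℤ := v.ord (triv v * f)` (vanishing order of the section), `ordSec_nonneg`,
  `ev_eq_zero_iff : ev v f = 0 ↔ f = 0 ∨ 0 < ordSec v f`;
* `ker_ev : ev v f = 0 ↔ f ∈ L(d·P0 - v)`;
* `ev_ne_zero` (base-point-free, `2g ≤ d`);
* `exists_ev_eq_zero_ne` (separation of points, `2g + 1 ≤ d`): `v ≠ w → ∃ f, ev v f = 0 ∧ ev w f ≠ 0`;
* `dev v t : Lm P0 d →ₗ[K] K` (first-order coefficient w.r.t. a uniformizer `t` at `v`) and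
  `exists_ev_eq_zero_dev_ne` (immersion, `2g + 1 ≤ d`): `∃ f, ev v f = 0 ∧ dev v t f ≠ 0`;
* `linearIndependent_ev`, `linearIndependent_ev_dev`.
-/
import Mathlib
import Fermat.Agent.MW.EMB.Value6
import Fermat.Agent.MW.EMB.OnePoint6

set_option autoImplicit false
set_option linter.unusedSectionVars false

open AlgebraicCurve

namespace Fermat.Agent.MW.EMB.Coord6

open Fermat.Agent.X0.FF Fermat.Agent.RR.LSpace Fermat.Agent.RR.LHypGen
open Fermat.Agent.MW.EMB.Value6 Fermat.Agent.MW.EMB.OnePoint6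

variable {K F : Type*} [Field K] [Field F] [Algebra K F]

theorem sgl_ne {v w : Place K F} (h : w ≠ v) (n : ℤ) :
    (Finsupp.single v n : Divisor K F) w = 0 := by
  classical
  rw [Finsupp.single_apply, if_neg (Ne.symm h)]

theorem sgl_same (v : Place K F) (n : ℤ) : (Finsupp.single v n : Divisor K F) v = n := by
  classical
  rw [Finsupp.single_apply, if_pos rfl]

/-- The local trivialisation of `O(d·P0)` at `v`: `t0 ^ d` at `P0`, `1` elsewhere. -/
noncomputable def triv (P0 : Place K F) (d : ℕ) (t0 : F) (v : Place K F) : F := by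
  classical
  exact if v = P0 then t0 ^ d else 1

theorem triv_self (P0 : Place K F) (d : ℕ) (t0 : F) : triv P0 d t0 P0 = t0 ^ d := by
  classical
  simp [triv]

theorem triv_of_ne (P0 : Place K F) (d : ℕ) (t0 : F) {v : Place K F} (hv : v ≠ P0) :
    triv P0 d t0 v = 1 := by
  classical
  simp [triv, hv]

theorem triv_ne_zero (P0 : Place K F) (d : ℕ) {t0 : F} (ht0 : P0.ord t0 = 1) (v : Place K F) :
    triv P0 d t0 v ≠ 0 := by
  have ht00 : t0 ≠ 0 := by rintro rfl; simp at ht0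
  by_cases hv : v = P0
  · subst hv; rw [triv_self]; exact pow_ne_zero d ht00
  · rw [triv_of_ne P0 d t0 hv]; exact one_ne_zero

/-- `ord_v (triv v) = (d·P0)(v)`. -/
theorem ord_triv (P0 : Place K F) (d : ℕ) {t0 : F} (ht0 : P0.ord t0 = 1) (v : Place K F) :
    v.ord (triv P0 d t0 v) = mP P0 d v := by
  by_cases hv : v = P0
  · subst hv; rw [triv_self, mP_apply_self, ord_pow_uniformizer _ ht0]
  · rw [triv_of_ne P0 d t0 hv, mP_apply_of_ne P0 d hv]; simp

theorem triv_mul_mem (P0 : Place K F) {d : ℕ} {t0 : F} (ht0 : P0.ord t0 = 1) (v : Place K F)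
    {f : F} (hf : f ∈ Lm P0 d) : triv P0 d t0 v * f ∈ v.toValuationSubring := by
  by_cases hv : v = P0
  · subst hv; rw [triv_self]; exact pow_mul_mem_valuationSubring _ hf ht0
  · rw [triv_of_ne P0 d t0 hv, one_mul]; exact mem_valuationSubring_of_mem_Lm P0 hf hv

/-- The vanishing order at `v` of `f` as a section of `O(d·P0)`. -/
noncomputable def ordSec (P0 : Place K F) (d : ℕ) (t0 : F) (v : Place K F) (f : F) : ℤ :=
  v.ord (triv P0 d t0 v * f)

theorem ordSec_eq (P0 : Place K F) (d : ℕ) {t0 : F} (ht0 : P0.ord t0 = 1) (v : Place K F) {f : F}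
    (hf : f ≠ 0) : ordSec P0 d t0 v f = mP P0 d v + v.ord f := by
  rw [ordSec, v.ord_mul (triv_ne_zero P0 d ht0 v) hf, ord_triv P0 d ht0]

theorem ordSec_nonneg (P0 : Place K F) {d : ℕ} {t0 : F} (ht0 : P0.ord t0 = 1) (v : Place K F)
    {f : F} (hf : f ∈ Lm P0 d) : 0 ≤ ordSec P0 d t0 v f :=
  ffp_ord_nonneg_of_mem v (triv_mul_mem P0 ht0 v hf)

/-- The value at `v` of the section `f` of `O(d·P0)`. -/
noncomputable def ev (H : LHyp K F) (P0 : Place K F) (d : ℕ) {t0 : F} (ht0 : P0.ord t0 = 1)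
    (v : Place K F) : Lm P0 d →ₗ[K] K where
  toFun f := valF H v (triv P0 d t0 v * (f : F))
  map_add' f g := by
    rw [Submodule.coe_add, mul_add]
    exact valF_add H v (triv_mul_mem P0 ht0 v f.2) (triv_mul_mem P0 ht0 v g.2)
  map_smul' c f := by
    rw [Submodule.coe_smul, mul_smul_comm, RingHom.id_apply, smul_eq_mul]
    exact valF_smul H v c (triv_mul_mem P0 ht0 v f.2)

theorem ev_apply (H : LHyp K F) (P0 : Place K F) (d : ℕ) {t0 : F} (ht0 : P0.ord t0 = 1)
    (v : Place K F) (f : Lm P0 d) : ev H P0 d ht0 v f = valF H v (triv P0 d t0 v * (f : F)) := rfl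

theorem ev_eq_zero_iff (H : LHyp K F) (P0 : Place K F) (d : ℕ) {t0 : F} (ht0 : P0.ord t0 = 1)
    (v : Place K F) (f : Lm P0 d) :
    ev H P0 d ht0 v f = 0 ↔ (f : F) = 0 ∨ 0 < ordSec P0 d t0 v (f : F) := by
  rw [ev_apply, valF_eq_zero_iff H v (triv_mul_mem P0 ht0 v f.2), ordSec, mul_eq_zero]
  constructor
  · rintro ((h | h) | h)
    · exact absurd h (triv_ne_zero P0 d ht0 v)
    · exact Or.inl h
    · exact Or.inr h
  · rintro (h | h)
    · exact Or.inl (Or.inr h)
    · exact Or.inr h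

/-- The sections vanishing at `v` are `L(d·P0 - v)`. -/
theorem ev_eq_zero_iff_mem (H : LHyp K F) (P0 : Place K F) (d : ℕ) {t0 : F} (ht0 : P0.ord t0 = 1)
    (v : Place K F) (f : Lm P0 d) :
    ev H P0 d ht0 v f = 0 ↔ (f : F) ∈ riemannRochSpace (mP P0 d - Finsupp.single v 1) := by
  rw [ev_eq_zero_iff]
  rcases eq_or_ne (f : F) 0 with h0 | h0
  · simp [h0]
  rw [or_iff_right h0, ordSec_eq P0 d ht0 v h0, mem_L_iff h0]
  have hf := (mem_L_iff h0).mp f.2
  constructor
  · intro h w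
    rw [Finsupp.sub_apply]
    by_cases hw : w = v
    · subst hw; rw [sgl_same]; omega
    · rw [sgl_ne hw]; have := hf w; omega
  · intro h
    have := h v
    rw [Finsupp.sub_apply, sgl_same] at this
    omega

section RR

variable [IsAlgClosed K] [CharZero K] {x : F} [HasCanonicalDivisor (K := K) (F := F)]

/-- **Base-point-freeness**: for `d ≥ 2g` some section does not vanish at `v`. -/
theorem exists_ev_ne_zero (hx : IsGen K x) (P0 : Place K F) {d : ℕ}
    (hd : 2 * (genus K F : ℤ) ≤ d) {t0 : F} (ht0 : P0.ord t0 = 1) (v : Place K F) :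
    ∃ f : Lm P0 d, ev (lHyp_of_isGen hx) P0 d ht0 v f ≠ 0 := by
  by_cases hv : v = P0
  · subst hv
    obtain ⟨f, hf, hf0, hord⟩ := exists_pole_order hx v hd
    refine ⟨⟨f, hf⟩, ?_⟩
    rw [Ne, ev_eq_zero_iff]
    rintro (h | h)
    · exact hf0 h
    · rw [ordSec_eq v d ht0 v hf0, mP_apply_self, hord] at h
      omega
  · refine ⟨⟨1, one_mem_Lm P0 d⟩, ?_⟩
    rw [ev_apply, triv_of_ne P0 d t0 hv]
    simp

/-- `ℓ(d·P0 - E) = d - deg E + 1 - g` for `deg E ≤ d - (2g - 1)`. -/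
theorem finrank_L_sub (hx : IsGen K x) (P0 : Place K F) (d : ℕ) (E : Divisor K F)
    (hE : Divisor.degree E + 2 * (genus K F : ℤ) - 1 ≤ d) :
    (Module.finrank K (riemannRochSpace (mP P0 d - E)) : ℤ) =
      d - Divisor.degree E + 1 - genus K F := by
  have h := finrank_L hx (mP P0 d - E)
    (by rw [map_sub, degree_mP (lHyp_of_isGen hx)]; omega)
  rw [map_sub, degree_mP (lHyp_of_isGen hx)] at h
  exact h

/-- A strict inclusion `L(D - E - v) < L(D - E)` for `deg E + 1 ≤ d - (2g - 1)`. -/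
theorem exists_mem_not_mem (hx : IsGen K x) (P0 : Place K F) (d : ℕ) (E : Divisor K F)
    (v : Place K F) (hE : Divisor.degree E + 2 * (genus K F : ℤ) ≤ d) :
    ∃ f ∈ riemannRochSpace (mP P0 d - E),
      f ∉ riemannRochSpace (mP P0 d - (E + Finsupp.single v 1)) := by
  have H := lHyp_of_isGen hx
  have h1 := finrank_L_sub hx P0 d E (by omega)
  have h2 := finrank_L_sub hx P0 d (E + Finsupp.single v 1)
    (by rw [map_add, degree_single H]; omega)
  rw [map_add, degree_single H] at h2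
  have hle : riemannRochSpace (mP P0 d - (E + Finsupp.single v 1)) ≤
      riemannRochSpace (mP P0 d - E) := by
    apply L_mono
    intro w
    simp only [Finsupp.sub_apply, Finsupp.add_apply]
    by_cases hw : w = v
    · subst hw; rw [sgl_same]; omega
    · rw [sgl_ne hw]; omega
  have := Fermat.Agent.RR.RRMain.finiteDimensional_L hx (mP P0 d - E)
  have hlt : riemannRochSpace (mP P0 d - (E + Finsupp.single v 1)) <
      riemannRochSpace (mP P0 d - E) := by
    refine lt_of_le_of_ne hle fun heq => ?_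
    rw [heq] at h2
    omega
  obtain ⟨f, hf, hnf⟩ := SetLike.exists_of_lt hlt
  exact ⟨f, hf, hnf⟩

theorem L_sub_le_Lm (P0 : Place K F) (d : ℕ) {E : Divisor K F} (hE : 0 ≤ E) :
    riemannRochSpace (mP P0 d - E) ≤ Lm P0 d := by
  apply L_mono
  intro w
  have := hE w
  simp only [Finsupp.sub_apply, Finsupp.coe_zero, Pi.zero_apply] at this ⊢
  omega

/-- **Separation of points**: for `d ≥ 2g + 1` and `v ≠ w` some section vanishes at `v` but not
at `w`. -/
theorem exists_ev_eq_zero_ne (hx : IsGen K x) (P0 : Place K F) {d : ℕ}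
    (hd : 2 * (genus K F : ℤ) + 1 ≤ d) {t0 : F} (ht0 : P0.ord t0 = 1) {v w : Place K F}
    (hvw : v ≠ w) :
    ∃ f : Lm P0 d, ev (lHyp_of_isGen hx) P0 d ht0 v f = 0 ∧
      ev (lHyp_of_isGen hx) P0 d ht0 w f ≠ 0 := by
  have H := lHyp_of_isGen hx
  obtain ⟨f, hf, hnf⟩ := exists_mem_not_mem hx P0 d (Finsupp.single v 1) w
    (by rw [degree_single H]; omega)
  have hfL : f ∈ Lm P0 d :=
    L_sub_le_Lm P0 d (by
      intro u
      simp only [Finsupp.coe_zero, Pi.zero_apply]
      by_cases hu : u = v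
      · subst hu; rw [sgl_same]; norm_num
      · rw [sgl_ne hu]) hf
  refine ⟨⟨f, hfL⟩, (ev_eq_zero_iff_mem _ P0 d ht0 v ⟨f, hfL⟩).mpr hf, fun h0 => hnf ?_⟩
  have h1 := (ev_eq_zero_iff_mem _ P0 d ht0 w ⟨f, hfL⟩).mp h0
  -- `f ∈ L(D - v) ∩ L(D - w) = L(D - v - w)` as `v ≠ w`
  rcases eq_or_ne f 0 with rfl | h00
  · exact zero_mem _
  rw [mem_L_iff h00] at hf h1 ⊢
  intro u
  have hu1 := hf u
  have hu2 := h1 u
  simp only [Finsupp.sub_apply, Finsupp.add_apply] at hu1 hu2 ⊢
  by_cases huv : u = v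
  · subst huv
    rw [sgl_same] at hu1 ⊢
    rw [sgl_ne hvw] at hu2 ⊢
    omega
  · rw [sgl_ne huv] at hu1 ⊢
    omega

end RR

end Fermat.Agent.MW.EMB.Coord6
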