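/-
PROGRAMME MW (S17), block EMB (helper6).  `Tangent6` = (E2), part 2: FIRST-ORDER expansion of the
sections of `O(d·P0)` at a place, and the immersion property of the embedding by `|d·P0|`.

Setting as in `Coord6`.  For a place `v` with a uniformizer `t` (`v.ord t = 1`) and `f ∈ L(d·P0)`:
`triv v * f = ev v f + t * (dev v t f + t * r)` with `r` regular at `v`.

* `quot1 v t f : F := (triv v * f - ev v f) / t`, `quot1_mem` (regular at `v`);
* `dev v t : Lm P0 d →ₗ[K] K` (the value of `quot1` at `v`), `dev_apply`;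
* `dev_eq_valF_div : ev v f = 0 → dev v t f = valF v (triv v * f / t)`;
* `dev_ne_zero_iff : ev v f = 0 → (dev v t f ≠ 0 ↔ f ≠ 0 ∧ ordSec v f = 1)`;
* `ev_dev_eq_zero_iff : ev v f = 0 ∧ dev v t f = 0 ↔ f = 0 ∨ 2 ≤ ordSec v f`;
* `exists_ev_eq_zero_dev_ne` (**immersion**, `2g + 1 ≤ d`): a section vanishing at `v` to order
  exactly one.
-/
import Mathlib
import Fermat.Agent.MW.EMB.Coord6

set_option autoImplicit false
set_option linter.unusedSectionVars false

open AlgebraicCurve

namespace Fermat.Agent.MW.EMB.Tangent6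

open Fermat.Agent.X0.FF Fermat.Agent.RR.LSpace Fermat.Agent.RR.LHypGen
open Fermat.Agent.MW.EMB.Value6 Fermat.Agent.MW.EMB.OnePoint6 Fermat.Agent.MW.EMB.Coord6

variable {K F : Type*} [Field K] [Field F] [Algebra K F]

/-- `g - g(v)` vanishes at `v`. -/
theorem sub_valF_div_mem (H : LHyp K F) (v : Place K F) {t : F} (ht : v.ord t = 1) {g : F}
    (hg : g ∈ v.toValuationSubring) :
    (g - algebraMap K F (valF H v g)) / t ∈ v.toValuationSubring := by
  have ht0 : t ≠ 0 := by rintro rfl; simp at ht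
  rcases eq_or_ne g (algebraMap K F (valF H v g)) with h | h
  · rw [sub_eq_zero.mpr h, zero_div]; exact zero_mem _
  · have hpos := ord_sub_valF_pos H v hg h
    apply ffp_mem_of_ord_nonneg
    rw [div_eq_mul_inv, v.ord_mul (sub_ne_zero.mpr h) (inv_ne_zero ht0), v.ord_inv, ht]
    omega

/-- The first-order quotient of the section `f` at `v`. -/
noncomputable def quot1 (H : LHyp K F) (P0 : Place K F) (d : ℕ) {t0 : F} (ht0 : P0.ord t0 = 1)
    (v : Place K F) (t : F) (f : Lm P0 d) : F :=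
  (triv P0 d t0 v * (f : F) - algebraMap K F (ev H P0 d ht0 v f)) / t

theorem quot1_mem (H : LHyp K F) (P0 : Place K F) (d : ℕ) {t0 : F} (ht0 : P0.ord t0 = 1)
    (v : Place K F) {t : F} (ht : v.ord t = 1) (f : Lm P0 d) :
    quot1 H P0 d ht0 v t f ∈ v.toValuationSubring :=
  sub_valF_div_mem H v ht (triv_mul_mem P0 ht0 v f.2)

/-- The first-order coefficient at `v`, w.r.t. the uniformizer `t`, of the section `f`. -/
noncomputable def dev (H : LHyp K F) (P0 : Place K F) (d : ℕ) {t0 : F} (ht0 : P0.ord t0 = 1)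
    (v : Place K F) {t : F} (ht : v.ord t = 1) : Lm P0 d →ₗ[K] K where
  toFun f := valF H v (quot1 H P0 d ht0 v t f)
  map_add' f g := by
    rw [← valF_add H v (quot1_mem H P0 d ht0 v ht f) (quot1_mem H P0 d ht0 v ht g)]
    congr 1
    simp only [quot1, map_add, Submodule.coe_add]
    ring
  map_smul' c f := by
    rw [RingHom.id_apply, smul_eq_mul, ← valF_smul H v c (quot1_mem H P0 d ht0 v ht f)]
    congr 1
    simp only [quot1, map_smul, Submodule.coe_smul, smul_eq_mul, Algebra.smul_def, map_mul]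
    ring

theorem dev_apply (H : LHyp K F) (P0 : Place K F) (d : ℕ) {t0 : F} (ht0 : P0.ord t0 = 1)
    (v : Place K F) {t : F} (ht : v.ord t = 1) (f : Lm P0 d) :
    dev H P0 d ht0 v ht f = valF H v (quot1 H P0 d ht0 v t f) := rfl

/-- The expansion `triv v * f = ev v f + t * quot1`. -/
theorem triv_mul_eq (H : LHyp K F) (P0 : Place K F) (d : ℕ) {t0 : F} (ht0 : P0.ord t0 = 1)
    (v : Place K F) {t : F} (ht : v.ord t = 1) (f : Lm P0 d) :
    triv P0 d t0 v * (f : F) =
      algebraMap K F (ev H P0 d ht0 v f) + t * quot1 H P0 d ht0 v t f := by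
  have ht0' : t ≠ 0 := by rintro rfl; simp at ht
  rw [quot1]; field_simp; ring

theorem dev_eq_valF_div (H : LHyp K F) (P0 : Place K F) (d : ℕ) {t0 : F} (ht0 : P0.ord t0 = 1)
    (v : Place K F) {t : F} (ht : v.ord t = 1) (f : Lm P0 d) (h0 : ev H P0 d ht0 v f = 0) :
    dev H P0 d ht0 v ht f = valF H v (triv P0 d t0 v * (f : F) / t) := by
  rw [dev_apply, quot1, h0, map_zero, sub_zero]

/-- For a section vanishing at `v`: the first-order coefficient is nonzero iff the vanishing order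
is exactly one. -/
theorem dev_ne_zero_iff (H : LHyp K F) (P0 : Place K F) (d : ℕ) {t0 : F} (ht0 : P0.ord t0 = 1)
    (v : Place K F) {t : F} (ht : v.ord t = 1) (f : Lm P0 d) (h0 : ev H P0 d ht0 v f = 0) :
    dev H P0 d ht0 v ht f ≠ 0 ↔ (f : F) ≠ 0 ∧ ordSec P0 d t0 v (f : F) = 1 := by
  have ht0' : t ≠ 0 := by rintro rfl; simp at ht
  have hmem : triv P0 d t0 v * (f : F) / t ∈ v.toValuationSubring := by
    have := quot1_mem H P0 d ht0 v ht f
    rwa [quot1, h0, map_zero, sub_zero] at this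
  rw [dev_eq_valF_div H P0 d ht0 v ht f h0, Ne, valF_eq_zero_iff H v hmem]
  rcases eq_or_ne (f : F) 0 with hf | hf
  · simp [hf]
  have htf : triv P0 d t0 v * (f : F) ≠ 0 := mul_ne_zero (triv_ne_zero P0 d ht0 v) hf
  have hord : v.ord (triv P0 d t0 v * (f : F) / t) = ordSec P0 d t0 v (f : F) - 1 := by
    rw [div_eq_mul_inv, v.ord_mul htf (inv_ne_zero ht0'), v.ord_inv, ht, ordSec]; ring
  have hpos : 0 < ordSec P0 d t0 v (f : F) := by
    rcases (ev_eq_zero_iff H P0 d ht0 v f).mp h0 with h | h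
    · exact absurd h hf
    · exact h
  rw [hord]
  constructor
  · intro h
    refine ⟨hf, ?_⟩
    by_contra hne
    apply h
    right
    omega
  · rintro ⟨-, h1⟩ (h | h)
    · exact (div_ne_zero htf ht0') h
    · omega

theorem ev_dev_eq_zero_iff (H : LHyp K F) (P0 : Place K F) (d : ℕ) {t0 : F}
    (ht0 : P0.ord t0 = 1) (v : Place K F) {t : F} (ht : v.ord t = 1) (f : Lm P0 d) :
    (ev H P0 d ht0 v f = 0 ∧ dev H P0 d ht0 v ht f = 0) ↔
      (f : F) = 0 ∨ 2 ≤ ordSec P0 d t0 v (f : F) := by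
  constructor
  · rintro ⟨h0, h1⟩
    by_contra hcon
    push Not at hcon
    have hpos : 0 < ordSec P0 d t0 v (f : F) := by
      rcases (ev_eq_zero_iff H P0 d ht0 v f).mp h0 with h | h
      · exact absurd h hcon.1
      · exact h
    have := (dev_ne_zero_iff H P0 d ht0 v ht f h0).mpr ⟨hcon.1, by omega⟩
    exact this h1
  · intro h
    have h0 : ev H P0 d ht0 v f = 0 := by
      rw [ev_eq_zero_iff]
      rcases h with h | h
      · exact Or.inl h
      · exact Or.inr (by omega)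
    refine ⟨h0, ?_⟩
    by_contra hne
    have := (dev_ne_zero_iff H P0 d ht0 v ht f h0).mp hne
    rcases h with h | h
    · exact this.1 h
    · omega

section RR

variable [IsAlgClosed K] [CharZero K] {x : F} [HasCanonicalDivisor (K := K) (F := F)]

/-- **Immersion**: for `d ≥ 2g + 1` some section vanishes at `v` to order exactly one. -/
theorem exists_ev_eq_zero_dev_ne (hx : IsGen K x) (P0 : Place K F) {d : ℕ}
    (hd : 2 * (genus K F : ℤ) + 1 ≤ d) {t0 : F} (ht0 : P0.ord t0 = 1) (v : Place K F) {t : F}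
    (ht : v.ord t = 1) :
    ∃ f : Lm P0 d, ev (lHyp_of_isGen hx) P0 d ht0 v f = 0 ∧
      dev (lHyp_of_isGen hx) P0 d ht0 v ht f ≠ 0 := by
  have H := lHyp_of_isGen hx
  obtain ⟨f, hf, hnf⟩ := exists_mem_not_mem hx P0 d (Finsupp.single v 1) v
    (by rw [degree_single H]; omega)
  have hfL : f ∈ Lm P0 d :=
    L_sub_le_Lm P0 d (by
      intro u
      simp only [Finsupp.coe_zero, Pi.zero_apply]
      by_cases hu : u = v
      · subst hu; rw [sgl_same]; norm_num
      · rw [sgl_ne hu]) hf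
  have h0 : ev (lHyp_of_isGen hx) P0 d ht0 v ⟨f, hfL⟩ = 0 :=
    (ev_eq_zero_iff_mem _ P0 d ht0 v ⟨f, hfL⟩).mpr hf
  refine ⟨⟨f, hfL⟩, h0, ?_⟩
  have hf0 : f ≠ 0 := by rintro rfl; exact hnf (zero_mem _)
  rw [dev_ne_zero_iff _ P0 d ht0 v ht _ h0]
  refine ⟨hf0, ?_⟩
  have hpos : 0 < ordSec P0 d t0 v f := by
    rcases (ev_eq_zero_iff _ P0 d ht0 v ⟨f, hfL⟩).mp h0 with h | h
    · exact absurd h hf0
    · exact h
  by_contra hne
  apply hnf
  rw [mem_L_iff hf0]
  have hfm := (mem_L_iff hf0).mp hf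
  intro u
  have hu1 := hfm u
  simp only [Finsupp.sub_apply, Finsupp.add_apply] at hu1 ⊢
  by_cases huv : u = v
  · subst huv
    rw [sgl_same] at hu1 ⊢
    rw [ordSec_eq P0 d ht0 u hf0] at hpos hne
    omega
  · rw [sgl_ne huv] at hu1 ⊢
    omega

end RR

end Fermat.Agent.MW.EMB.Tangent6
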