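/-
PROGRAMME MW (S17), block EMB (helper6).  `Proj6` = (E2), part 3: HOMOGENEOUS COORDINATES of the
points of the curve embedded by `|d·P0|`, w.r.t. a basis `b` of `L(d·P0)`, and HYPERPLANE SECTIONS.

Setting as in `Coord6`; `b : Module.Basis (Fin n) K (Lm P0 d)`.

* `pt b v : Fin n → K := fun i => ev v (b i)`, `dpt b v t : Fin n → K := fun i => dev v t (b i)`;
* `lin b c : Lm P0 d := ∑ i, c i • b i` (the section of a linear form `c`), `lin_eq_zero_iff`,
  `ev_lin : ev v (lin b c) = ∑ i, c i * pt b v i`, `dev_lin`, `exists_lin_eq` (every section is a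
  `lin`);
* `pt_ne_zero` (`2g ≤ d`), `pt_indep : v ≠ w → LinearIndependent K ![pt b v, pt b w]` and
  `pt_dpt_indep : LinearIndependent K ![pt b v, dpt b v t]` (`2g + 1 ≤ d`);
* hyperplane sections: `hyp b c hc : Divisor K F := div (lin b c) + d·P0`, `hyp_apply` (`= ordSec`),
  `hyp_nonneg`, `degree_hyp = d`, `hyp_pos_iff : 0 < hyp b c hc v ↔ ∑ i, c i * pt b v i = 0`,
  `hyp_eq_one_iff : hyp b c hc v = 1 ↔ ∑ i, c i * pt b v i = 0 ∧ ∑ i, c i * dpt b v t i ≠ 0`.
-/
import Mathlib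
import Fermat.Agent.MW.EMB.Tangent6

set_option autoImplicit false
set_option linter.unusedSectionVars false

open AlgebraicCurve

namespace Fermat.Agent.MW.EMB.Proj6

open Fermat.Agent.X0.FF Fermat.Agent.RR.LSpace Fermat.Agent.RR.LHypGen
open Fermat.Agent.MW.EMB.Value6 Fermat.Agent.MW.EMB.OnePoint6 Fermat.Agent.MW.EMB.Coord6
open Fermat.Agent.MW.EMB.Tangent6

variable {K F : Type*} [Field K] [Field F] [Algebra K F]

section Basic

variable (H : LHyp K F) (P0 : Place K F) (d : ℕ) {t0 : F} (ht0 : P0.ord t0 = 1) {n : ℕ}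
  (b : Module.Basis (Fin n) K (Lm P0 d))

/-- Homogeneous coordinates of the point `v` of the curve. -/
noncomputable def pt (v : Place K F) : Fin n → K := fun i => ev H P0 d ht0 v (b i)

/-- Coordinates of the tangent vector at `v` w.r.t. the uniformizer `t`. -/
noncomputable def dpt (v : Place K F) {t : F} (ht : v.ord t = 1) : Fin n → K :=
  fun i => dev H P0 d ht0 v ht (b i)

/-- The section of `O(d·P0)` cut out by the linear form with coefficients `c`. -/
noncomputable def lin (c : Fin n → K) : Lm P0 d := ∑ i, c i • b i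

theorem lin_eq_zero_iff (c : Fin n → K) : lin P0 d b c = 0 ↔ c = 0 := by
  constructor
  · intro h
    have := (Fintype.linearIndependent_iff.mp b.linearIndependent) c h
    exact funext this
  · rintro rfl; simp [lin]

theorem exists_lin_eq (f : Lm P0 d) : ∃ c : Fin n → K, lin P0 d b c = f :=
  ⟨fun i => b.repr f i, by rw [lin]; exact b.sum_repr f⟩

theorem ev_lin (v : Place K F) (c : Fin n → K) :
    ev H P0 d ht0 v (lin P0 d b c) = ∑ i, c i * pt H P0 d ht0 b v i := by
  simp [lin, pt, map_sum]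

theorem dev_lin (v : Place K F) {t : F} (ht : v.ord t = 1) (c : Fin n → K) :
    dev H P0 d ht0 v ht (lin P0 d b c) = ∑ i, c i * dpt H P0 d ht0 b v ht i := by
  simp [lin, dpt, map_sum]

/-- A linear functional on `L(d·P0)` that vanishes on the basis vanishes. -/
theorem ext_of_basis (φ : Lm P0 d →ₗ[K] K) (h : ∀ i, φ (b i) = 0) : φ = 0 :=
  b.ext fun i => by simpa using h i

end Basic

section RR

variable [IsAlgClosed K] [CharZero K] {x : F} [HasCanonicalDivisor (K := K) (F := F)]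
variable (hx : IsGen K x) (P0 : Place K F) {d : ℕ} {t0 : F} (ht0 : P0.ord t0 = 1) {n : ℕ}
  (b : Module.Basis (Fin n) K (Lm P0 d))

/-- The point of the curve is a point of projective space (`2g ≤ d`). -/
theorem pt_ne_zero (hd : 2 * (genus K F : ℤ) ≤ d) (v : Place K F) :
    pt (lHyp_of_isGen hx) P0 d ht0 b v ≠ 0 := by
  intro h0
  obtain ⟨f, hf⟩ := exists_ev_ne_zero hx P0 hd ht0 v
  apply hf
  have := ext_of_basis P0 d b (ev (lHyp_of_isGen hx) P0 d ht0 v) (fun i => congrFun h0 i)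
  rw [this]; rfl

/-- **Separation of points** in coordinates (`2g + 1 ≤ d`). -/
theorem pt_indep (hd : 2 * (genus K F : ℤ) + 1 ≤ d) {v w : Place K F} (hvw : v ≠ w) :
    LinearIndependent K ![pt (lHyp_of_isGen hx) P0 d ht0 b v,
      pt (lHyp_of_isGen hx) P0 d ht0 b w] := by
  rw [LinearIndependent.pair_iff]
  intro α β hαβ
  -- the functional `α ev_v + β ev_w` vanishes
  have hφ : α • ev (lHyp_of_isGen hx) P0 d ht0 v + β • ev (lHyp_of_isGen hx) P0 d ht0 w = 0 := by
    apply ext_of_basis P0 d b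
    intro i
    have := congrFun hαβ i
    simpa [pt] using this
  obtain ⟨f, hf1, hf2⟩ := exists_ev_eq_zero_ne hx P0 hd ht0 hvw
  obtain ⟨f', hf1', hf2'⟩ := exists_ev_eq_zero_ne hx P0 hd ht0 (Ne.symm hvw)
  have h1 := LinearMap.congr_fun hφ f
  have h2 := LinearMap.congr_fun hφ f'
  simp only [LinearMap.add_apply, LinearMap.smul_apply, smul_eq_mul, LinearMap.zero_apply,
    hf1, hf1', mul_zero, zero_add, add_zero] at h1 h2
  exact ⟨(mul_eq_zero.mp h2).resolve_right hf2', (mul_eq_zero.mp h1).resolve_right hf2⟩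

/-- **Immersion** in coordinates (`2g + 1 ≤ d`): the point and its tangent vector span a line. -/
theorem pt_dpt_indep (hd : 2 * (genus K F : ℤ) + 1 ≤ d) (v : Place K F) {t : F}
    (ht : v.ord t = 1) :
    LinearIndependent K ![pt (lHyp_of_isGen hx) P0 d ht0 b v,
      dpt (lHyp_of_isGen hx) P0 d ht0 b v ht] := by
  rw [LinearIndependent.pair_iff]
  intro α β hαβ
  have hφ : α • ev (lHyp_of_isGen hx) P0 d ht0 v + β • dev (lHyp_of_isGen hx) P0 d ht0 v ht = 0 := by
    apply ext_of_basis P0 d b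
    intro i
    have := congrFun hαβ i
    simpa [pt, dpt] using this
  obtain ⟨f, hf1, hf2⟩ := exists_ev_eq_zero_dev_ne hx P0 hd ht0 v ht
  obtain ⟨f', hf'⟩ := exists_ev_ne_zero hx P0 (d := d) (by omega) ht0 v
  have h1 := LinearMap.congr_fun hφ f
  simp only [LinearMap.add_apply, LinearMap.smul_apply, smul_eq_mul, LinearMap.zero_apply,
    hf1, mul_zero, zero_add] at h1
  have hβ : β = 0 := (mul_eq_zero.mp h1).resolve_right hf2
  subst hβ
  have h2 := LinearMap.congr_fun hφ f'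
  simp only [LinearMap.add_apply, LinearMap.smul_apply, smul_eq_mul, LinearMap.zero_apply,
    zero_mul, add_zero] at h2
  exact ⟨(mul_eq_zero.mp h2).resolve_right hf', rfl⟩

end RR

section Hyp

variable (H : LHyp K F) (P0 : Place K F) (d : ℕ) {t0 : F} (ht0 : P0.ord t0 = 1) {n : ℕ}
  (b : Module.Basis (Fin n) K (Lm P0 d))

theorem lin_ne_zero {c : Fin n → K} (hc : c ≠ 0) : ((lin P0 d b c : Lm P0 d) : F) ≠ 0 := by
  intro h
  exact hc ((lin_eq_zero_iff P0 d b c).mp (Subtype.ext h))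

/-- The hyperplane section `{c = 0} ∩ X`, an effective divisor of degree `d`. -/
noncomputable def hyp {c : Fin n → K} (hc : c ≠ 0) : Divisor K F :=
  divOf H (lin_ne_zero P0 d b hc) + mP P0 d

include ht0

theorem hyp_apply {c : Fin n → K} (hc : c ≠ 0) (v : Place K F) :
    hyp H P0 d b hc v = ordSec P0 d t0 v ((lin P0 d b c : Lm P0 d) : F) := by
  rw [hyp, Finsupp.add_apply, divOf_apply, ordSec_eq P0 d ht0 v (lin_ne_zero P0 d b hc)]
  ring

theorem hyp_nonneg {c : Fin n → K} (hc : c ≠ 0) : 0 ≤ hyp H P0 d b hc := by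
  intro v
  rw [hyp_apply H P0 d ht0 b hc v]
  exact ordSec_nonneg P0 ht0 v (lin P0 d b c).2

omit ht0 in
theorem degree_hyp {c : Fin n → K} (hc : c ≠ 0) : Divisor.degree (hyp H P0 d b hc) = d := by
  rw [hyp, map_add, degree_divOf, zero_add, degree_mP H]

theorem hyp_pos_iff {c : Fin n → K} (hc : c ≠ 0) (v : Place K F) :
    0 < hyp H P0 d b hc v ↔ ∑ i, c i * pt H P0 d ht0 b v i = 0 := by
  rw [← ev_lin, ev_eq_zero_iff, hyp_apply H P0 d ht0 b hc v, or_iff_right (lin_ne_zero P0 d b hc)]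

theorem hyp_eq_one_iff {c : Fin n → K} (hc : c ≠ 0) (v : Place K F) {t : F} (ht : v.ord t = 1) :
    hyp H P0 d b hc v = 1 ↔
      ∑ i, c i * pt H P0 d ht0 b v i = 0 ∧ ∑ i, c i * dpt H P0 d ht0 b v ht i ≠ 0 := by
  rw [← ev_lin, ← dev_lin, hyp_apply H P0 d ht0 b hc v]
  constructor
  · intro h1
    have h0 : ev H P0 d ht0 v (lin P0 d b c) = 0 := by
      rw [ev_eq_zero_iff]; right; omega
    exact ⟨h0, (dev_ne_zero_iff H P0 d ht0 v ht _ h0).mpr ⟨lin_ne_zero P0 d b hc, h1⟩⟩
  · rintro ⟨h0, h1⟩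
    exact ((dev_ne_zero_iff H P0 d ht0 v ht _ h0).mp h1).2

end Hyp

end Fermat.Agent.MW.EMB.Proj6
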