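/-
PROGRAMME MW (S17), block EMB, part (E6a) (helper1).  `GalVal1` = SEMILINEAR EQUIVARIANCE of the
constructions of `Value6`, `Coord6`, `Tangent6`, `Proj6` (all ABSTRACT: `F / K` with `H : LHyp K F`,
`g : SemilinearAut K F` acting on `F`, on `K` through `baseAut g`, and on the places).

* `mem_smul_iff`, `smul_mem_smul_iff` : membership in the valuation ring of `g • v`;
* `valF_smul : valF H (g • v) (g • f) = baseAut g (valF H v f)`;
* `smul_mem_L : f ∈ L(D) → g • f ∈ L(g • D)`, `smul_mP`, `smul_mem_Lm` (for `g • P0 = P0`);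
* `smulLm` : the additive automorphism `f ↦ g • f` of `Lm P0 m`, `smulLm_smul` (semilinearity);
* `triv_smul`, `ordSec_smul`, `ev_smul`, `quot1_smul`, `dev_smul` (for `g • P0 = P0`, `g • t0 = t0`);
* `pt_smul`, `dpt_smul` : for a basis `b` of `Lm P0 d` with `g • b i = b i`:
  `pt b (g • v) = baseAut g ∘ pt b v`, `dpt b (g • v) (g • t) = baseAut g ∘ dpt b v t`;
* `repr_fixed` : the coordinates w.r.t. a `g`-fixed basis of a `g`-fixed vector are
  `baseAut g`-fixed;  `hyp_smul` : `g • hyp b c = hyp b (baseAut g ∘ c)`.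
-/
import Mathlib
import Fermat.Agent.MW.EMB.Proj6
import Fermat.Prelude.Def_AlgebraicCurve_BaseChangeGalois

set_option autoImplicit false
set_option linter.unusedSectionVars false

open AlgebraicCurve

namespace Fermat.Agent.MW.EMB.GalVal1

open Fermat.Agent.X0.FF Fermat.Agent.RR.LSpace
open Fermat.Agent.MW.EMB.Value6 Fermat.Agent.MW.EMB.OnePoint6 Fermat.Agent.MW.EMB.Coord6
open Fermat.Agent.MW.EMB.Tangent6 Fermat.Agent.MW.EMB.Proj6
open scoped Pointwise

variable {K F : Type*} [Field K] [Field F] [Algebra K F]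

/-! ### Valuation rings and orders -/

theorem smul_mem_smul_iff (g : SemilinearAut K F) (v : Place K F) (f : F) :
    g • f ∈ (g • v).toValuationSubring ↔ f ∈ v.toValuationSubring := by
  rw [SemilinearAut.smul_toValuationSubring]
  exact ValuationSubring.smul_mem_pointwise_smul_iff

theorem mem_smul_iff (g : SemilinearAut K F) (v : Place K F) (f : F) :
    f ∈ (g • v).toValuationSubring ↔ g⁻¹ • f ∈ v.toValuationSubring := by
  rw [SemilinearAut.smul_toValuationSubring]
  exact ValuationSubring.mem_pointwise_smul_iff_inv_smul_mem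

theorem smul_eq_zero_iff (g : SemilinearAut K F) (f : F) : g • f = 0 ↔ f = 0 := by
  rw [SemilinearAut.smul_def]
  exact map_eq_zero_iff _ (SemilinearAut.toRingAut g).injective

theorem smul_sub' (g : SemilinearAut K F) (a b : F) : g • (a - b) = g • a - g • b := by
  rw [SemilinearAut.smul_def, SemilinearAut.smul_def, SemilinearAut.smul_def, map_sub]

theorem smul_div' (g : SemilinearAut K F) (a b : F) : g • (a / b) = g • a / g • b := by
  rw [SemilinearAut.smul_def, SemilinearAut.smul_def, SemilinearAut.smul_def, map_div₀]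

theorem smul_pow'' (g : SemilinearAut K F) (a : F) (n : ℕ) : g • (a ^ n) = (g • a) ^ n := by
  rw [SemilinearAut.smul_def, SemilinearAut.smul_def, map_pow]

theorem ord_smul_place (g : SemilinearAut K F) (v : Place K F) (f : F) :
    (g • v).ord f = v.ord (g⁻¹ • f) := by
  have h := SemilinearAut.ord_smul g v (g⁻¹ • f)
  rwa [smul_inv_smul] at h

/-! ### The value at a place -/

/-- **Equivariance of the value map.** -/
theorem valF_smul (H : LHyp K F) (g : SemilinearAut K F) (v : Place K F) (f : F) :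
    valF H (g • v) (g • f) = SemilinearAut.baseAut g (valF H v f) := by
  by_cases hf : f ∈ v.toValuationSubring
  · have hf' : g • f ∈ (g • v).toValuationSubring := (smul_mem_smul_iff g v f).mpr hf
    refine valF_unique H (g • v) hf' _ ?_
    by_cases hne : f = algebraMap K F (valF H v f)
    · left
      conv_lhs => rw [hne]
      exact SemilinearAut.smul_algebraMap g _
    · right
      have hpos := ord_sub_valF_pos H v hf hne
      have h1 : g • f - algebraMap K F (SemilinearAut.baseAut g (valF H v f)) =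
          g • (f - algebraMap K F (valF H v f)) := by
        rw [smul_sub', SemilinearAut.smul_algebraMap]
      rw [h1, SemilinearAut.ord_smul]
      exact hpos
  · have hf' : g • f ∉ (g • v).toValuationSubring := fun h => hf ((smul_mem_smul_iff g v f).mp h)
    rw [valF_of_not_mem H v hf, valF_of_not_mem H (g • v) hf', map_zero]

/-! ### Riemann–Roch spaces -/

theorem smul_mem_L (g : SemilinearAut K F) {D : Divisor K F} {f : F}
    (hf : f ∈ riemannRochSpace D) : g • f ∈ riemannRochSpace (g • D) := by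
  rcases eq_or_ne f 0 with rfl | h0
  · rw [smul_zero]; exact zero_mem _
  have h0' : g • f ≠ 0 := fun h => h0 ((smul_eq_zero_iff g f).mp h)
  rw [mem_L_iff h0] at hf
  rw [mem_L_iff h0']
  intro w
  rw [SemilinearAut.divisor_smul_apply]
  have h1 := hf (g⁻¹ • w)
  have h2 := SemilinearAut.ord_smul g (g⁻¹ • w) f
  rw [smul_inv_smul] at h2
  rw [h2]
  exact h1

theorem smul_mP (g : SemilinearAut K F) (P0 : Place K F) (m : ℕ) (hP : g • P0 = P0) :
    g • mP P0 m = mP P0 m := by
  rw [mP, SemilinearAut.smul_single, hP]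

theorem smul_mem_Lm (g : SemilinearAut K F) {P0 : Place K F} (hP : g • P0 = P0) {m : ℕ} {f : F}
    (hf : f ∈ Lm P0 m) : g • f ∈ Lm P0 m := by
  have := smul_mem_L g hf
  rwa [smul_mP g P0 m hP] at this

theorem inv_smul_place {g : SemilinearAut K F} {P0 : Place K F} (hP : g • P0 = P0) :
    g⁻¹ • P0 = P0 := by
  conv_lhs => rw [← hP]
  exact inv_smul_smul g P0

/-- `f ↦ g • f` on `Lm P0 m`, an additive automorphism (`g • P0 = P0`). -/
noncomputable def smulLm (g : SemilinearAut K F) {P0 : Place K F} (hP : g • P0 = P0) (m : ℕ) :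
    Lm P0 m ≃+ Lm P0 m where
  toFun f := ⟨g • (f : F), smul_mem_Lm g hP f.2⟩
  invFun f := ⟨g⁻¹ • (f : F), smul_mem_Lm g⁻¹ (inv_smul_place hP) f.2⟩
  left_inv f := Subtype.ext (inv_smul_smul g (f : F))
  right_inv f := Subtype.ext (smul_inv_smul g (f : F))
  map_add' f f' := Subtype.ext (smul_add g (f : F) (f' : F))

@[simp] theorem coe_smulLm (g : SemilinearAut K F) {P0 : Place K F} (hP : g • P0 = P0) (m : ℕ)
    (f : Lm P0 m) : ((smulLm g hP m f : Lm P0 m) : F) = g • (f : F) := rfl

/-- Semilinearity of `smulLm`. -/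
theorem smulLm_smul (g : SemilinearAut K F) {P0 : Place K F} (hP : g • P0 = P0) (m : ℕ) (c : K)
    (f : Lm P0 m) : smulLm g hP m (c • f) = SemilinearAut.baseAut g c • smulLm g hP m f := by
  apply Subtype.ext
  rw [coe_smulLm, Submodule.coe_smul, Submodule.coe_smul, coe_smulLm, Algebra.smul_def,
    Algebra.smul_def, smul_mul', SemilinearAut.smul_algebraMap]

theorem smulLm_sum (g : SemilinearAut K F) {P0 : Place K F} (hP : g • P0 = P0) (m : ℕ)
    {ι : Type*} (s : Finset ι) (f : ι → Lm P0 m) :
    smulLm g hP m (∑ i ∈ s, f i) = ∑ i ∈ s, smulLm g hP m (f i) :=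
  map_sum (smulLm g hP m) f s

/-! ### Coordinates w.r.t. a fixed basis -/

/-- The coordinates of `g • f` w.r.t. a `g`-fixed basis are the `baseAut g`-images of the
coordinates of `f`. -/
theorem repr_smulLm (g : SemilinearAut K F) {P0 : Place K F} (hP : g • P0 = P0) {m : ℕ} {n : ℕ}
    (b : Module.Basis (Fin n) K (Lm P0 m)) (hb : ∀ i, g • ((b i : Lm P0 m) : F) = b i)
    (f : Lm P0 m) (i : Fin n) :
    b.repr (smulLm g hP m f) i = SemilinearAut.baseAut g (b.repr f i) := by
  have hb' : ∀ i, smulLm g hP m (b i) = b i := fun i => Subtype.ext (hb i)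
  have h1 : smulLm g hP m f = ∑ j, SemilinearAut.baseAut g (b.repr f j) • b j := by
    conv_lhs => rw [← b.sum_repr f]
    rw [smulLm_sum]
    refine Finset.sum_congr rfl fun j _ => ?_
    rw [smulLm_smul, hb']
  rw [h1, b.repr_sum_self]

/-- The coordinates of a `g`-fixed vector w.r.t. a `g`-fixed basis are `baseAut g`-fixed. -/
theorem repr_fixed (g : SemilinearAut K F) {P0 : Place K F} (hP : g • P0 = P0) {m : ℕ} {n : ℕ}
    (b : Module.Basis (Fin n) K (Lm P0 m)) (hb : ∀ i, g • ((b i : Lm P0 m) : F) = b i)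
    (f : Lm P0 m) (hf : g • (f : F) = f) (i : Fin n) :
    SemilinearAut.baseAut g (b.repr f i) = b.repr f i := by
  rw [← repr_smulLm g hP b hb f i]
  have : smulLm g hP m f = f := Subtype.ext hf
  rw [this]

/-! ### Trivialisations, evaluation, first-order coefficients -/

section Triv

variable (g : SemilinearAut K F) {P0 : Place K F} (hP : g • P0 = P0) (d : ℕ) {t0 : F}
  (hg0 : g • t0 = t0)

include hP hg0

theorem triv_smul (v : Place K F) : triv P0 d t0 (g • v) = g • triv P0 d t0 v := by
  by_cases hv : v = P0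
  · subst hv
    rw [hP, triv_self, smul_pow'', hg0]
  · have hv' : g • v ≠ P0 := by
      intro h
      apply hv
      have h2 : g • v = g • P0 := by rw [h, hP]
      exact MulAction.injective g h2
    rw [triv_of_ne P0 d t0 hv, triv_of_ne P0 d t0 hv', smul_one]

theorem ordSec_smul (v : Place K F) (f : F) :
    ordSec P0 d t0 (g • v) (g • f) = ordSec P0 d t0 v f := by
  rw [ordSec, ordSec, triv_smul g hP d hg0, ← smul_mul', SemilinearAut.ord_smul]

theorem ev_smul (H : LHyp K F) (ht0 : P0.ord t0 = 1) (v : Place K F) (f : Lm P0 d) :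
    ev H P0 d ht0 (g • v) (smulLm g hP d f) = SemilinearAut.baseAut g (ev H P0 d ht0 v f) := by
  rw [ev_apply, ev_apply, coe_smulLm, triv_smul g hP d hg0, ← smul_mul', valF_smul]

theorem quot1_smul (H : LHyp K F) (ht0 : P0.ord t0 = 1) (v : Place K F) (t : F) (f : Lm P0 d) :
    quot1 H P0 d ht0 (g • v) (g • t) (smulLm g hP d f) = g • quot1 H P0 d ht0 v t f := by
  rw [quot1, quot1, ev_smul g hP d hg0 H ht0, coe_smulLm, triv_smul g hP d hg0, smul_div',
    smul_sub', smul_mul', SemilinearAut.smul_algebraMap]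

theorem ord_smul_uniformizer {v : Place K F} {t : F} (ht : v.ord t = 1) :
    (g • v).ord (g • t) = 1 := by
  rw [SemilinearAut.ord_smul]; exact ht

theorem dev_smul (H : LHyp K F) (ht0 : P0.ord t0 = 1) (v : Place K F) {t : F} (ht : v.ord t = 1)
    (ht' : (g • v).ord (g • t) = 1) (f : Lm P0 d) :
    dev H P0 d ht0 (g • v) ht' (smulLm g hP d f) =
      SemilinearAut.baseAut g (dev H P0 d ht0 v ht f) := by
  rw [dev_apply, dev_apply, quot1_smul g hP d hg0 H ht0, valF_smul]

variable {n : ℕ} (b : Module.Basis (Fin n) K (Lm P0 d))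
  (hb : ∀ i, g • ((b i : Lm P0 d) : F) = b i)

include hb

/-- **Equivariance of the homogeneous coordinates** w.r.t. a `g`-fixed basis. -/
theorem pt_smul (H : LHyp K F) (ht0 : P0.ord t0 = 1) (v : Place K F) :
    pt H P0 d ht0 b (g • v) = fun i => SemilinearAut.baseAut g (pt H P0 d ht0 b v i) := by
  funext i
  have hb' : smulLm g hP d (b i) = b i := Subtype.ext (hb i)
  show ev H P0 d ht0 (g • v) (b i) = _
  conv_lhs => rw [← hb']
  exact ev_smul g hP d hg0 H ht0 v (b i)

/-- **Equivariance of the tangent coordinates** w.r.t. a `g`-fixed basis. -/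
theorem dpt_smul (H : LHyp K F) (ht0 : P0.ord t0 = 1) (v : Place K F) {t : F} (ht : v.ord t = 1)
    (ht' : (g • v).ord (g • t) = 1) :
    dpt H P0 d ht0 b (g • v) ht' = fun i => SemilinearAut.baseAut g (dpt H P0 d ht0 b v ht i) := by
  funext i
  have hb' : smulLm g hP d (b i) = b i := Subtype.ext (hb i)
  show dev H P0 d ht0 (g • v) ht' (b i) = _
  conv_lhs => rw [← hb']
  exact dev_smul g hP d hg0 H ht0 v ht ht' (b i)

/-- `g` maps the section of the linear form `c` to the section of `baseAut g ∘ c`. -/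
theorem smulLm_lin (c : Fin n → K) :
    smulLm g hP d (lin P0 d b c) = lin P0 d b (fun i => SemilinearAut.baseAut g (c i)) := by
  have hb' : ∀ i, smulLm g hP d (b i) = b i := fun i => Subtype.ext (hb i)
  rw [lin, lin, smulLm_sum]
  refine Finset.sum_congr rfl fun j _ => ?_
  rw [smulLm_smul, hb']

end Triv

end Fermat.Agent.MW.EMB.GalVal1
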