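/-
PROGRAMME MW (S17), block EMB (helper6).  `Section6` = (E4): PROJECTIVE NORMALITY of the embedding by
the one-point divisor `d·P0`, by the pole-order filtration at `P0`.

Setting as in `OnePoint6` (`hx : IsGen K x`, RR), `g = genus K F`, `4g ≤ d`.

* `pow_Lm_le : (Lm P0 d) ^ k ≤ Lm P0 (k * d)`;
* `exists_pow_pole : 1 ≤ k → 2g ≤ m → m ≤ k * d → ∃ s ∈ (Lm P0 d) ^ k, s ≠ 0 ∧ P0.ord s = -m`
  (every pole order `≥ 2g` is a sum of `k` pole orders from `{0} ∪ [2g, d]`);
* `pow_Lm_eq : (Lm P0 d) ^ k = Lm P0 (k * d)`: every function with a pole of order `≤ k d` at `P0`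
  and no other pole is a `K`-combination of `k`-fold products of elements of `L(d·P0)`.
-/
import Mathlib
import Fermat.Agent.MW.EMB.OnePoint6

set_option autoImplicit false
set_option linter.unusedSectionVars false

open AlgebraicCurve

namespace Fermat.Agent.MW.EMB.Section6

open Fermat.Agent.X0.FF Fermat.Agent.RR.LSpace Fermat.Agent.RR.LHypGen
open Fermat.Agent.MW.EMB.OnePoint6

variable {K F : Type*} [Field K] [Field F] [Algebra K F]

theorem pow_Lm_le (P0 : Place K F) (d k : ℕ) : (Lm P0 d) ^ k ≤ Lm P0 (k * d) := by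
  induction k with
  | zero =>
    rw [pow_zero, Submodule.one_le]
    exact one_mem_Lm P0 _
  | succ k ih =>
    rw [pow_succ, Submodule.mul_le]
    intro a ha b hb
    have := mul_mem_Lm P0 (ih ha) hb
    rwa [show k * d + d = (k + 1) * d by ring] at this

theorem pow_Lm_mono (P0 : Place K F) (d : ℕ) {k k' : ℕ} (h : k ≤ k') :
    (Lm P0 d) ^ k ≤ (Lm P0 d) ^ k' := by
  induction h with
  | refl => exact le_rfl
  | step _ ih =>
    refine ih.trans ?_
    intro a ha
    rw [pow_succ]
    have := Submodule.mul_mem_mul ha (one_mem_Lm P0 d)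
    rwa [mul_one] at this

theorem Lm_le_pow (P0 : Place K F) (d : ℕ) {k : ℕ} (hk : 1 ≤ k) : Lm P0 d ≤ (Lm P0 d) ^ k := by
  have := pow_Lm_mono P0 d hk
  rwa [pow_one] at this

theorem mP_succ (P0 : Place K F) (m : ℕ) : mP P0 (m + 1) = mP P0 m + Finsupp.single P0 1 := by
  rw [mP_add]; simp [mP]

section RR

variable [IsAlgClosed K] [CharZero K] {x : F} [HasCanonicalDivisor (K := K) (F := F)]

/-- Every `m ∈ [2g, k d]` is the pole order at `P0` of a `k`-fold product (`4g ≤ d`, `1 ≤ k`). -/
theorem exists_pow_pole (hx : IsGen K x) (P0 : Place K F) {d : ℕ}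
    (hd : 4 * (genus K F : ℤ) ≤ d) :
    ∀ k : ℕ, 1 ≤ k → ∀ m : ℕ, 2 * (genus K F : ℤ) ≤ m → m ≤ k * d →
      ∃ s ∈ (Lm P0 d) ^ k, s ≠ 0 ∧ P0.ord s = -(m : ℤ) := by
  have hg0 : (0 : ℤ) ≤ genus K F := by positivity
  intro k hk
  induction k, hk using Nat.le_induction with
  | base =>
    intro m hm hmd
    rw [one_mul] at hmd
    obtain ⟨f, hf, hf0, hord⟩ := exists_pole_order hx P0 hm
    exact ⟨f, by rw [pow_one]; exact Lm_mono P0 hmd hf, hf0, hord⟩
  | succ k hk ih =>
    intro m hm hmd
    by_cases hle : m ≤ k * d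
    · obtain ⟨s, hs, hs0, hord⟩ := ih m hm hle
      exact ⟨s, pow_Lm_mono P0 d (Nat.le_succ k) hs, hs0, hord⟩
    · push Not at hle
      have hkd : (d : ℤ) ≤ k * d := by
        have : (1 : ℤ) ≤ k := by exact_mod_cast hk
        nlinarith
      -- choose `a ∈ [2g, d]` with `m - a ∈ [2g, k d]`
      obtain ⟨a, ha1, ha2, ha3, ha4⟩ : ∃ a : ℕ, 2 * (genus K F : ℤ) ≤ a ∧ a ≤ d ∧ a ≤ m ∧
          (2 * (genus K F : ℤ) ≤ (m - a : ℕ) ∧ m - a ≤ k * d) := by
        have hmd' : (m : ℤ) ≤ (k + 1) * d := by exact_mod_cast hmd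
        have hle' : (k : ℤ) * d < m := by exact_mod_cast hle
        by_cases hcase : 2 * (genus K F : ℤ) ≤ (m : ℤ) - k * d
        · refine ⟨m - k * d, ?_, ?_, Nat.sub_le _ _, ?_, ?_⟩
          · have : ((m - k * d : ℕ) : ℤ) = (m : ℤ) - k * d := by
              rw [Nat.cast_sub hle.le]; push_cast; ring
            rw [this]; exact hcase
          · have : m - k * d ≤ d := by
              have h1 : m ≤ k * d + d := by nlinarith [hmd]
              omega
            exact this
          · have h2 : m - (m - k * d) = k * d := by omega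
            rw [h2]; push_cast; linarith
          · have h2 : m - (m - k * d) = k * d := by omega
            rw [h2]
        · push Not at hcase
          refine ⟨2 * genus K F, by push_cast; linarith, ?_, ?_, ?_, ?_⟩
          · have : (2 * genus K F : ℤ) ≤ d := by linarith
            exact_mod_cast this
          · have : (2 * genus K F : ℤ) ≤ m := by linarith
            exact_mod_cast this
          · have h2 : (2 * genus K F : ℤ) ≤ m := by linarith
            have h3 : 2 * genus K F ≤ m := by exact_mod_cast h2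
            rw [Nat.cast_sub h3]; push_cast; linarith
          · have h2 : (2 * genus K F : ℤ) ≤ m := by linarith
            have h3 : 2 * genus K F ≤ m := by exact_mod_cast h2
            have h4 : ((m - 2 * genus K F : ℕ) : ℤ) ≤ ((k * d : ℕ) : ℤ) := by
              rw [Nat.cast_sub h3]; push_cast; linarith
            exact_mod_cast h4
      obtain ⟨s, hs, hs0, hsord⟩ := ih (m - a) ha4.1 ha4.2
      obtain ⟨f, hf, hf0, hford⟩ := exists_pole_order hx P0 ha1
      refine ⟨s * f, ?_, mul_ne_zero hs0 hf0, ?_⟩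
      · rw [pow_succ]
        exact Submodule.mul_mem_mul hs (Lm_mono P0 ha2 hf)
      · rw [P0.ord_mul hs0 hf0, hsord, hford, Nat.cast_sub ha3]; ring

/-- **Projective normality** of `d·P0` (`4g ≤ d`): `L(d·P0)^k = L(k d·P0)`. -/
theorem pow_Lm_eq (hx : IsGen K x) (P0 : Place K F) {d : ℕ} (hd : 4 * (genus K F : ℤ) ≤ d)
    (k : ℕ) : (Lm P0 d) ^ k = Lm P0 (k * d) := by
  have H := lHyp_of_isGen hx
  have hg0 : (0 : ℤ) ≤ genus K F := by positivity
  refine le_antisymm (pow_Lm_le P0 d k) ?_
  -- by induction on `m ≤ k d`: `L(m·P0) ≤ L(d·P0)^k`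
  have key : ∀ m : ℕ, m ≤ k * d → Lm P0 m ≤ (Lm P0 d) ^ k := by
    intro m
    induction m with
    | zero =>
      intro _
      have h0 : Lm P0 0 = Submodule.span K {(1 : F)} := by
        have : mP P0 0 = 0 := by simp [mP]
        rw [Lm, this, L_zero H]
      rw [h0, Submodule.span_le, Set.singleton_subset_iff]
      have := Submodule.pow_mem_pow (Lm P0 d) (one_mem_Lm P0 d) k
      rwa [one_pow] at this
    | succ m ih =>
      intro hm
      have ihm := ih (by omega)
      by_cases hsame : Lm P0 (m + 1) ≤ Lm P0 m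
      · exact hsame.trans ihm
      · obtain ⟨h, hh, hnh⟩ := SetLike.not_le_iff_exists.mp hsame
        have hh0 : h ≠ 0 := by rintro rfl; exact hnh (zero_mem _)
        have hk : 1 ≤ k := by
          rcases Nat.eq_zero_or_pos k with rfl | hk
          · simp at hm
          · exact hk
        -- an element of `L^k` of pole order exactly `m + 1`
        obtain ⟨s, hs, hs0, hsord⟩ : ∃ s ∈ (Lm P0 d) ^ k, s ≠ 0 ∧ P0.ord s = -((m + 1 : ℕ) : ℤ) := by
          by_cases hbig : 2 * (genus K F : ℤ) ≤ (m + 1 : ℕ)
          · exact exists_pow_pole hx P0 hd k hk (m + 1) hbig hm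
          · push Not at hbig
            have hmd : m + 1 ≤ d := by
              have : ((m + 1 : ℕ) : ℤ) ≤ d := by linarith
              exact_mod_cast this
            refine ⟨h, Lm_le_pow P0 d hk (Lm_mono P0 hmd hh), hh0, ?_⟩
            have h1 := ((mem_Lm_iff P0 _ hh0).mp hh)
            by_contra hne
            apply hnh
            rw [mem_Lm_iff P0 _ hh0]
            refine ⟨?_, h1.2⟩
            have := h1.1
            push_cast at this hne ⊢
            omega
        have hsL : s ∈ Lm P0 (m + 1) := by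
          rw [mem_Lm_iff P0 _ hs0]
          refine ⟨by rw [hsord], fun v hv => ?_⟩
          have := pow_Lm_le P0 d k hs
          exact ((mem_Lm_iff P0 _ hs0).mp this).2 v hv
        have hsn : s ∉ Lm P0 m := by
          intro hcon
          have := ((mem_Lm_iff P0 _ hs0).mp hcon).1
          rw [hsord] at this
          push_cast at this
          omega
        intro f hf
        have hf' : f ∈ riemannRochSpace (mP P0 m + Finsupp.single P0 1) := by
          rw [← mP_succ]; exact hf
        have hs' : s ∈ riemannRochSpace (mP P0 m + Finsupp.single P0 1) := by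
          rw [← mP_succ]; exact hsL
        obtain ⟨c, hc⟩ := exists_sub_smul_mem H (mP P0 m) P0 hf' hs' hsn
        have h1 : f - c • s ∈ (Lm P0 d) ^ k := ihm hc
        have h2 : c • s ∈ (Lm P0 d) ^ k := Submodule.smul_mem _ c hs
        have := Submodule.add_mem _ h1 h2
        rwa [sub_add_cancel] at this
  exact key (k * d) le_rfl

end RR

end Fermat.Agent.MW.EMB.Section6
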