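/-
PROGRAMME MW (S17), block EMB (helper6).  `Form6` = (E3): FORMS in the homogeneous coordinates as
functions / sections on the curve.

Setting as in `Proj6`: `b : Module.Basis (Fin n) K (Lm P0 d)`, `pt v` the coordinate vector of `v`.

* `formFn b : MvPolynomial (Fin n) K →ₐ[K] F`, `X i ↦ b i`;
* `map_homogeneousSubmodule : (forms of degree e).map formFn = (Lm P0 d) ^ e`;
  `formFn_mem_pow`, `formFn_mem : p.IsHomogeneous e → formFn b p ∈ Lm P0 (e * d)`,
  `exists_form_of_mem_pow`, and (RR, `4g ≤ d`) `exists_form : f ∈ Lm P0 (e * d) → ∃ p, …`;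
* `aeval_mul_of_isHomogeneous : aeval (c * f ·) p = c ^ e * aeval f p`;
* `eval_pt : eval (pt v) p = ev (e * d) v ⟨formFn b p, _⟩` (the value of the form at the point
  is the value of the section at the place);
* `eval_pt_eq_zero_of_formFn_eq_zero`, `formFn_eq_zero_of_eval_pt` (a form vanishing at all
  points of the curve lies in the ideal of the curve).
-/
import Mathlib
import Fermat.Agent.MW.EMB.Proj6
import Fermat.Agent.MW.EMB.Section6

set_option autoImplicit false
set_option linter.unusedSectionVars false

open AlgebraicCurve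

namespace Fermat.Agent.MW.EMB.Form6

open Fermat.Agent.X0.FF Fermat.Agent.RR.LSpace Fermat.Agent.RR.LHypGen
open Fermat.Agent.MW.EMB.Value6 Fermat.Agent.MW.EMB.OnePoint6 Fermat.Agent.MW.EMB.Coord6
open Fermat.Agent.MW.EMB.Proj6 Fermat.Agent.MW.EMB.Section6

variable {K F : Type*} [Field K] [Field F] [Algebra K F]

/-- Homogeneous polynomials scale homogeneously. -/
theorem aeval_mul_of_isHomogeneous {A : Type*} [CommRing A] [Algebra K A] {σ : Type*}
    {p : MvPolynomial σ K} {e : ℕ} (hp : p.IsHomogeneous e) (c : A) (f : σ → A) :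
    MvPolynomial.aeval (fun i => c * f i) p = c ^ e * MvPolynomial.aeval f p := by
  induction hp using MvPolynomial.IsWeightedHomogeneous.induction_on with
  | zero => simp
  | add p q _ _ hp hq => rw [map_add, map_add, hp, hq, mul_add]
  | monomial m r hr =>
    rw [MvPolynomial.aeval_monomial, MvPolynomial.aeval_monomial]
    have h1 : (m.prod fun i k => (c * f i) ^ k) = c ^ e * m.prod fun i k => f i ^ k := by
      simp only [mul_pow]
      rw [Finsupp.prod_mul]
      congr 1
      rw [Finsupp.prod, Finset.prod_pow_eq_pow_sum]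
      congr 1
      rw [← hr, Finsupp.weight_apply]
      simp [Finsupp.sum]
    rw [h1]; ring

/-- A transcendental function has a zero. -/
theorem exists_zero_of_transcendental (H : LHyp K F) {f : F} (hf : Transcendental K f) :
    ∃ v : Place K F, 0 < v.ord f := by
  by_contra hcon
  push Not at hcon
  obtain ⟨c, hc⟩ := eq_algebraMap_of_forall_ord_nonneg H (f := f⁻¹) (fun v => by
    rw [v.ord_inv]; have := hcon v; omega)
  apply hf
  have : f = algebraMap K F c⁻¹ := by rw [map_inv₀, ← hc, inv_inv]
  rw [this]; exact isAlgebraic_algebraMap _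

/-- A function field over an infinite constant field has infinitely many places. -/
theorem infinite_place (H : LHyp K F) [Infinite K] {x : F} (hx : Transcendental K x) :
    Infinite (Place K F) := by
  have h1 : ∀ c : K, ∃ v : Place K F, 0 < v.ord (x - algebraMap K F c) := fun c => by
    apply exists_zero_of_transcendental H
    intro halg
    apply hx
    have := halg.add (isAlgebraic_algebraMap (R := K) (A := F) c)
    rwa [sub_add_cancel] at this
  choose w hw using h1
  refine Infinite.of_injective w ?_
  intro c c' hcc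
  by_contra hne
  have h2 := hw c'
  rw [← hcc] at h2
  have h3 : (x - algebraMap K F c) - (x - algebraMap K F c') = algebraMap K F (c' - c) := by
    rw [map_sub]; ring
  have h4 : (x - algebraMap K F c) - (x - algebraMap K F c') ≠ 0 := by
    rw [h3]
    intro h0
    apply hne
    have := (map_eq_zero (algebraMap K F)).mp h0
    exact (sub_eq_zero.mp this).symm
  have h5 := ord_sub_ge (w c) h4
  rw [h3, ord_algebraMap] at h5
  have h6 := lt_min (hw c) h2
  omega

section Basic

variable (H : LHyp K F) (P0 : Place K F) (d : ℕ) {t0 : F} (ht0 : P0.ord t0 = 1) {n : ℕ}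
  (b : Module.Basis (Fin n) K (Lm P0 d))

/-- The function on the curve attached to a polynomial in the homogeneous coordinates. -/
noncomputable def formFn : MvPolynomial (Fin n) K →ₐ[K] F :=
  MvPolynomial.aeval (fun i => ((b i : Lm P0 d) : F))

@[simp] theorem formFn_X (i : Fin n) : formFn P0 d b (MvPolynomial.X i) = ((b i : Lm P0 d) : F) :=
  MvPolynomial.aeval_X _ _

theorem formFn_C (c : K) : formFn P0 d b (MvPolynomial.C c) = algebraMap K F c :=
  MvPolynomial.aeval_C _ _

theorem span_range_basis :
    Submodule.span K (Set.range fun i => ((b i : Lm P0 d) : F)) = Lm P0 d := by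
  have h1 := b.span_eq
  have h2 : Submodule.map (Lm P0 d).subtype (Submodule.span K (Set.range b)) = Lm P0 d := by
    rw [h1, Submodule.map_top, Submodule.range_subtype]
  rw [Submodule.map_span, ← Set.range_comp] at h2
  exact h2

/-- The forms of degree `e` map onto `L(d·P0)^e`. -/
theorem map_homogeneousSubmodule (e : ℕ) :
    (MvPolynomial.homogeneousSubmodule (Fin n) K e).map (formFn P0 d b).toLinearMap =
      (Lm P0 d) ^ e := by
  rw [← MvPolynomial.homogeneousSubmodule_one_pow, Submodule.map_pow,
    MvPolynomial.homogeneousSubmodule_one_eq_span_X, Submodule.map_span, ← Set.range_comp]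
  congr 1
  rw [← span_range_basis P0 d b]
  congr 2
  ext i
  simp [formFn]

theorem formFn_mem_pow {p : MvPolynomial (Fin n) K} {e : ℕ} (hp : p.IsHomogeneous e) :
    formFn P0 d b p ∈ (Lm P0 d) ^ e := by
  rw [← map_homogeneousSubmodule]
  exact Submodule.mem_map_of_mem hp

theorem formFn_mem {p : MvPolynomial (Fin n) K} {e : ℕ} (hp : p.IsHomogeneous e) :
    formFn P0 d b p ∈ Lm P0 (e * d) :=
  pow_Lm_le P0 d e (formFn_mem_pow P0 d b hp)

theorem exists_form_of_mem_pow {f : F} {e : ℕ} (hf : f ∈ (Lm P0 d) ^ e) :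
    ∃ p : MvPolynomial (Fin n) K, p.IsHomogeneous e ∧ formFn P0 d b p = f := by
  rw [← map_homogeneousSubmodule P0 d b] at hf
  obtain ⟨p, hp, rfl⟩ := hf
  exact ⟨p, hp, rfl⟩

theorem triv_mul (e : ℕ) (v : Place K F) :
    triv P0 (e * d) t0 v = (triv P0 d t0 v) ^ e := by
  by_cases hv : v = P0
  · subst hv; rw [triv_self, triv_self, ← pow_mul, mul_comm]
  · rw [triv_of_ne P0 _ t0 hv, triv_of_ne P0 _ t0 hv, one_pow]

/-- The value map as a `K`-algebra homomorphism. -/
noncomputable def valAlg (v : Place K F) : v.toValuationSubring →ₐ[K] K :=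
  { val H v with commutes' := val_algebraMap H v }

theorem valAlg_apply (v : Place K F) (a : v.toValuationSubring) : valAlg H v a = val H v a := rfl

/-- **The value of a form at the point `pt v` is the value of the section `formFn b p` of
`O(e d·P0)` at the place `v`.** -/
theorem eval_pt {p : MvPolynomial (Fin n) K} {e : ℕ} (hp : p.IsHomogeneous e) (v : Place K F) :
    MvPolynomial.eval (pt H P0 d ht0 b v) p =
      ev H P0 (e * d) ht0 v ⟨formFn P0 d b p, formFn_mem P0 d b hp⟩ := by
  rw [ev_apply, triv_mul]
  show _ = valF H v (triv P0 d t0 v ^ e * formFn P0 d b p)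
  rw [formFn, ← aeval_mul_of_isHomogeneous hp]
  set g : Fin n → v.toValuationSubring :=
    fun i => ⟨triv P0 d t0 v * ((b i : Lm P0 d) : F), triv_mul_mem P0 ht0 v (b i).2⟩ with hg
  have h1 : (fun i => triv P0 d t0 v * ((b i : Lm P0 d) : F)) =
      (algebraMap v.toValuationSubring F) ∘ g := by
    funext i; rfl
  rw [h1, MvPolynomial.aeval_algebraMap_apply]
  have h2 : valF H v (algebraMap v.toValuationSubring F (MvPolynomial.aeval g p)) =
      val H v (MvPolynomial.aeval g p) := by
    show valF H v ((MvPolynomial.aeval g p : v.toValuationSubring) : F) = _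
    rw [valF_of_mem H v (MvPolynomial.aeval g p).2]
  rw [h2, ← valAlg_apply]
  have h3 : (valAlg H v).comp (MvPolynomial.aeval g) =
      (MvPolynomial.aeval (pt H P0 d ht0 b v) : MvPolynomial (Fin n) K →ₐ[K] K) := by
    refine MvPolynomial.algHom_ext fun i => ?_
    rw [AlgHom.comp_apply, MvPolynomial.aeval_X, MvPolynomial.aeval_X, valAlg_apply, pt, ev_apply,
      valF_of_mem H v (triv_mul_mem P0 ht0 v (b i).2)]
  have h4 := congrArg (fun φ : MvPolynomial (Fin n) K →ₐ[K] K => φ p) h3
  simp only [AlgHom.comp_apply] at h4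
  rw [h4, MvPolynomial.aeval_eq_eval]

/-- A form in the ideal of the curve vanishes at every point of the curve. -/
theorem eval_pt_eq_zero_of_formFn_eq_zero {p : MvPolynomial (Fin n) K} {e : ℕ}
    (hp : p.IsHomogeneous e) (h0 : formFn P0 d b p = 0) (v : Place K F) :
    MvPolynomial.eval (pt H P0 d ht0 b v) p = 0 := by
  rw [eval_pt H P0 d ht0 b hp v]
  have : (⟨formFn P0 d b p, formFn_mem P0 d b hp⟩ : Lm P0 (e * d)) = 0 := Subtype.ext h0
  rw [this, map_zero]

/-- The zero set of a nonzero section of `O(m·P0)` is finite. -/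
theorem finite_zeros (m : ℕ) {s : Lm P0 m} (hs : (s : F) ≠ 0) :
    {v : Place K F | ev H P0 m ht0 v s = 0}.Finite := by
  refine ((divOf H hs + mP P0 m).support.finite_toSet).subset ?_
  intro v hv
  rw [Set.mem_ofPred_eq, ev_eq_zero_iff, or_iff_right hs, ordSec_eq P0 m ht0 v hs] at hv
  rw [Finset.mem_coe, Finsupp.mem_support_iff, Finsupp.add_apply, divOf_apply]
  omega

/-- A form vanishing at all points of the curve lies in the ideal of the curve. -/
theorem formFn_eq_zero_of_eval_pt (hinf : Infinite (Place K F)) {p : MvPolynomial (Fin n) K}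
    {e : ℕ} (hp : p.IsHomogeneous e)
    (h : ∀ v : Place K F, MvPolynomial.eval (pt H P0 d ht0 b v) p = 0) :
    formFn P0 d b p = 0 := by
  by_contra hne
  have hfin := finite_zeros H P0 ht0 (e * d)
    (s := ⟨formFn P0 d b p, formFn_mem P0 d b hp⟩) hne
  have huniv : {v : Place K F | ev H P0 (e * d) ht0 v
      ⟨formFn P0 d b p, formFn_mem P0 d b hp⟩ = 0} = Set.univ := by
    ext v
    simp only [Set.mem_ofPred_eq, Set.mem_univ, iff_true]
    rw [← eval_pt H P0 d ht0 b hp v]; exact h v
  rw [huniv] at hfin
  exact Set.infinite_univ hfin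

end Basic

section RR

variable [IsAlgClosed K] [CharZero K] {x : F} [HasCanonicalDivisor (K := K) (F := F)]

/-- (RR + projective normality) every element of `L(e d·P0)` is a form of degree `e` in the
coordinates. -/
theorem exists_form (hx : IsGen K x) (P0 : Place K F) {d : ℕ} (hd : 4 * (genus K F : ℤ) ≤ d)
    {n : ℕ} (b : Module.Basis (Fin n) K (Lm P0 d)) {f : F} {e : ℕ} (hf : f ∈ Lm P0 (e * d)) :
    ∃ p : MvPolynomial (Fin n) K, p.IsHomogeneous e ∧ formFn P0 d b p = f := by
  rw [← pow_Lm_eq hx P0 hd e] at hf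
  exact exists_form_of_mem_pow P0 d b hf

end RR

end Fermat.Agent.MW.EMB.Form6
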