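/-
PROGRAMME MW (S17), block EMB (helper6).  `Cert6` = (E5): the CURVE NULLSTELLENSATZ, by the
base-point-free pencil trick (pure Riemann–Roch, no Hilbert Nullstellensatz).

Setting as in `Form6` (`hx : IsGen K x`, RR), `g = genus K F`.

* `pencil` : two sections `G1, G2` of `O(e d·P0)` without common zero generate in high degree:
  `L((M+e) d·P0) = G1·L(M d·P0) + G2·L(M d·P0)` for `M ≥ e + 1` (`2g ≤ d`);
* `exists_generic` : a vector avoiding finitely many proper hyperplanes;
* `exists_section_decomp` : sections `s_j` of `O(e d·P0)` without common zero: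
  `L((M+e) d·P0) = Σ_j s_j·L(M d·P0)` for `M ≥ e + 1`;
* `exists_certificate_formFn`, `exists_certificate` (`4g ≤ d`) : forms `p_j` of degree `e` without
  common zero on the curve have homogeneous `q_(k,j)` of degree `M` with
  `Σ_j q_(k,j) p_j = X_k ^ (M+e)` on the curve, in exactly the shape of Mathlib's
  `Height.logHeight_eval_ge`.
-/
import Mathlib
import Fermat.Agent.MW.EMB.Form6

set_option autoImplicit false
set_option linter.unusedSectionVars false

open AlgebraicCurve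

namespace Fermat.Agent.MW.EMB.Cert6

open Fermat.Agent.X0.FF Fermat.Agent.RR.LSpace Fermat.Agent.RR.LHypGen
open Fermat.Agent.MW.EMB.Value6 Fermat.Agent.MW.EMB.OnePoint6 Fermat.Agent.MW.EMB.Coord6
open Fermat.Agent.MW.EMB.Proj6 Fermat.Agent.MW.EMB.Section6 Fermat.Agent.MW.EMB.Form6

variable {K F : Type*} [Field K] [Field F] [Algebra K F]

theorem mP_mul (P0 : Place K F) (k d : ℕ) (v : Place K F) :
    mP P0 (k * d) v = k * mP P0 d v := by
  by_cases hv : v = P0
  · subst hv; rw [mP_apply_self, mP_apply_self]; push_cast; ring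
  · rw [mP_apply_of_ne P0 _ hv, mP_apply_of_ne P0 _ hv, mul_zero]

/-- A section does not vanish at `v` iff its order is the minimal one. -/
theorem ev_ne_zero_iff (H : LHyp K F) (P0 : Place K F) (m : ℕ) {t0 : F} (ht0 : P0.ord t0 = 1)
    (v : Place K F) (s : Lm P0 m) (hs : (s : F) ≠ 0) :
    ev H P0 m ht0 v s ≠ 0 ↔ v.ord (s : F) = -mP P0 m v := by
  rw [Ne, ev_eq_zero_iff, or_iff_right hs, ordSec_eq P0 m ht0 v hs]
  have := ordSec_nonneg P0 ht0 v s.2
  rw [ordSec_eq P0 m ht0 v hs] at this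
  omega

theorem ne_zero_of_ev_ne_zero (H : LHyp K F) (P0 : Place K F) (m : ℕ) {t0 : F}
    (ht0 : P0.ord t0 = 1) (v : Place K F) (s : Lm P0 m) (h : ev H P0 m ht0 v s ≠ 0) :
    (s : F) ≠ 0 := by
  intro h0
  apply h
  have : s = 0 := Subtype.ext h0
  rw [this, map_zero]

/-- A vector avoiding finitely many proper hyperplanes. -/
theorem exists_generic [Infinite K] {J : Type*} [Fintype J] {ι : Type*} (Z : Set ι)
    (hZ : Z.Finite) (φ : ι → J → K) (hφ : ∀ v ∈ Z, φ v ≠ 0) :
    ∃ c : J → K, ∀ v ∈ Z, ∑ j, c j * φ v j ≠ 0 := by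
  classical
  have : Finite Z := hZ.to_subtype
  let f : Z → Module.Dual K (J → K) := fun v =>
    { toFun := fun c => ∑ j, c j * φ v j
      map_add' := fun c c' => by simp [add_mul, Finset.sum_add_distrib]
      map_smul' := fun a c => by simp [Finset.mul_sum, mul_assoc] }
  have hf : ∀ v : Z, ∃ c, f v c ≠ 0 := by
    intro v
    obtain ⟨j, hj⟩ := Function.ne_iff.mp (hφ v v.2)
    refine ⟨Pi.single j 1, ?_⟩
    show ∑ j', (Pi.single j (1 : K) : J → K) j' * φ v j' ≠ 0
    rw [Finset.sum_eq_single j]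
    · simpa using hj
    · intro j' _ hne; simp [hne]
    · intro h; exact absurd (Finset.mem_univ j) h
  obtain ⟨c, hc⟩ := Module.Dual.exists_forall_ne_zero_of_forall_exists f hf
  exact ⟨c, fun v hv => hc ⟨v, hv⟩⟩

section RR

variable [IsAlgClosed K] [CharZero K] {x : F} [HasCanonicalDivisor (K := K) (F := F)]

/-- **Base-point-free pencil trick.** -/
theorem pencil (hx : IsGen K x) (P0 : Place K F) {d : ℕ} {t0 : F} (ht0 : P0.ord t0 = 1)
    (hd : 2 * (genus K F : ℤ) ≤ d) {e M : ℕ} (heM : e + 1 ≤ M)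
    (G1 G2 : Lm P0 (e * d)) (h1 : (G1 : F) ≠ 0) (h2 : (G2 : F) ≠ 0)
    (hcz : ∀ v : Place K F, ev (lHyp_of_isGen hx) P0 (e * d) ht0 v G1 ≠ 0 ∨
      ev (lHyp_of_isGen hx) P0 (e * d) ht0 v G2 ≠ 0)
    {f : F} (hf : f ∈ Lm P0 ((M + e) * d)) :
    ∃ a ∈ Lm P0 (M * d), ∃ a' ∈ Lm P0 (M * d), f = (G1 : F) * a + (G2 : F) * a' := by
  have H := lHyp_of_isGen hx
  have hg0 : (0 : ℤ) ≤ genus K F := by positivity
  set W := Lm P0 (M * d) with hW
  -- the multiplication map
  let φ : W × W →ₗ[K] F :=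
    ((LinearMap.mulLeft K (G1 : F)).comp W.subtype).coprod
      ((LinearMap.mulLeft K (G2 : F)).comp W.subtype)
  have hφ : ∀ z : W × W, φ z = (G1 : F) * (z.1 : F) + (G2 : F) * (z.2 : F) := fun z => rfl
  have hrange : LinearMap.range φ ≤ Lm P0 ((M + e) * d) := by
    rintro _ ⟨z, rfl⟩
    rw [hφ]
    have e1 : (M + e) * d = e * d + M * d := by ring
    rw [e1]
    exact Submodule.add_mem _ (mul_mem_Lm P0 G1.2 z.1.2) (mul_mem_Lm P0 G2.2 z.2.2)
  -- the kernel embeds into `L((M - e) d P0)`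
  let ψ0 : W × W →ₗ[K] F :=
    (LinearMap.mulRight K ((G2 : F))⁻¹).comp (W.subtype.comp (LinearMap.fst K W W))
  have hψ0 : ∀ z : W × W, ψ0 z = (z.1 : F) * ((G2 : F))⁻¹ := fun z => rfl
  have hmem : ∀ z ∈ LinearMap.ker φ, ψ0 z ∈ Lm P0 ((M - e) * d) := by
    intro z hz
    rw [LinearMap.mem_ker, hφ] at hz
    rw [hψ0]
    rcases eq_or_ne (z.1 : F) 0 with ha0 | ha0
    · rw [ha0, zero_mul]; exact zero_mem _
    have ha'0 : (z.2 : F) ≠ 0 := by
      intro h0
      rw [h0, mul_zero, add_zero] at hz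
      exact (mul_ne_zero h1 ha0) hz
    have hc0 : (z.1 : F) * ((G2 : F))⁻¹ ≠ 0 := mul_ne_zero ha0 (inv_ne_zero h2)
    rw [Lm, mem_L_iff hc0]
    intro v
    have hza := (mem_L_iff ha0).mp z.1.2 v
    have hza' := (mem_L_iff ha'0).mp z.2.2 v
    have hG1 := (mem_L_iff h1).mp G1.2 v
    have hG2 := (mem_L_iff h2).mp G2.2 v
    rw [mP_mul] at hza hza' hG1 hG2 ⊢
    have hrel : v.ord (G1 : F) + v.ord (z.1 : F) = v.ord (G2 : F) + v.ord (z.2 : F) := by
      have h3 : (G1 : F) * (z.1 : F) = -((G2 : F) * (z.2 : F)) := eq_neg_of_add_eq_zero_left hz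
      have h4 := congrArg v.ord h3
      rwa [ord_neg, v.ord_mul h1 ha0, v.ord_mul h2 ha'0] at h4
    rw [v.ord_mul ha0 (inv_ne_zero h2), v.ord_inv]
    have hcast : ((M - e : ℕ) : ℤ) = (M : ℤ) - e := by
      rw [Nat.cast_sub (by omega)]
    rw [hcast]
    rcases hcz v with hv | hv
    · have := (ev_ne_zero_iff H P0 (e * d) ht0 v G1 h1).mp hv
      rw [mP_mul] at this
      linarith
    · have := (ev_ne_zero_iff H P0 (e * d) ht0 v G2 h2).mp hv
      rw [mP_mul] at this
      linarith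
  have hfinW : FiniteDimensional K W := finiteDimensional_L H _
  have hfin1 : FiniteDimensional K (Lm P0 ((M - e) * d)) := finiteDimensional_L H _
  have hfin2 : FiniteDimensional K (Lm P0 ((M + e) * d)) := finiteDimensional_L H _
  let ψ : LinearMap.ker φ →ₗ[K] Lm P0 ((M - e) * d) :=
    (ψ0.domRestrict (LinearMap.ker φ)).codRestrict _ (fun z => hmem z.1 z.2)
  have hψinj : Function.Injective ψ := by
    intro z z' hzz
    have hz1 : ψ0 z.1 = ψ0 z'.1 := congrArg Subtype.val hzz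
    rw [hψ0, hψ0] at hz1
    have ha : ((z.1).1 : F) = ((z'.1).1 : F) := mul_right_cancel₀ (inv_ne_zero h2) hz1
    have hz2 := z.2
    have hz2' := z'.2
    rw [LinearMap.mem_ker, hφ] at hz2 hz2'
    have ha' : ((z.1).2 : F) = ((z'.1).2 : F) := by
      have : (G2 : F) * ((z.1).2 : F) = (G2 : F) * ((z'.1).2 : F) := by
        rw [ha] at hz2
        have := hz2.trans hz2'.symm
        exact add_left_cancel this
      exact mul_left_cancel₀ h2 this
    apply Subtype.ext
    apply Prod.ext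
    · exact Subtype.ext ha
    · exact Subtype.ext ha'
  have hker : Module.finrank K (LinearMap.ker φ) ≤ Module.finrank K (Lm P0 ((M - e) * d)) :=
    LinearMap.finrank_le_finrank_of_injective hψinj
  have hrn := LinearMap.finrank_range_add_finrank_ker φ
  rw [Module.finrank_prod] at hrn
  -- dimensions
  have hM1 : (1 : ℤ) ≤ M := by exact_mod_cast (by omega : 1 ≤ M)
  have hd0 : (0 : ℤ) ≤ d := by positivity
  have dW := finrank_Lm hx P0 (m := M * d) (by push_cast; nlinarith)
  have d1 := finrank_Lm hx P0 (m := (M - e) * d) (by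
    have : (1 : ℤ) ≤ ((M - e : ℕ) : ℤ) := by exact_mod_cast (by omega : 1 ≤ M - e)
    push_cast; nlinarith)
  have d2 := finrank_Lm hx P0 (m := (M + e) * d) (by push_cast; nlinarith)
  have hcast : ((M - e : ℕ) : ℤ) = (M : ℤ) - e := by rw [Nat.cast_sub (by omega)]
  have hle : Module.finrank K (Lm P0 ((M + e) * d)) ≤ Module.finrank K (LinearMap.range φ) := by
    have hker' : (Module.finrank K (LinearMap.ker φ) : ℤ) ≤
        Module.finrank K (Lm P0 ((M - e) * d)) := by exact_mod_cast hker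
    have hrn' : (Module.finrank K (LinearMap.range φ) : ℤ) +
        Module.finrank K (LinearMap.ker φ) = Module.finrank K W + Module.finrank K W := by
      exact_mod_cast hrn
    have : (Module.finrank K (Lm P0 ((M + e) * d)) : ℤ) ≤
        Module.finrank K (LinearMap.range φ) := by
      rw [d2]
      rw [d1] at hker'
      rw [dW] at hrn'
      push_cast at hker' hrn' ⊢
      rw [hcast] at hker'
      nlinarith
    exact_mod_cast this
  have heq : LinearMap.range φ = Lm P0 ((M + e) * d) :=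
    Submodule.eq_of_le_of_finrank_le hrange hle
  rw [← heq] at hf
  obtain ⟨z, rfl⟩ := hf
  exact ⟨z.1, z.1.2, z.2, z.2.2, hφ z⟩

/-- **Sections without common zero generate in high degree.** -/
theorem exists_section_decomp (hx : IsGen K x) (P0 : Place K F) {d : ℕ} {t0 : F}
    (ht0 : P0.ord t0 = 1) (hd : 2 * (genus K F : ℤ) ≤ d) {e : ℕ} {J : Type*} [Fintype J]
    (s : J → Lm P0 (e * d))
    (hnz : ∀ v : Place K F, ∃ j, ev (lHyp_of_isGen hx) P0 (e * d) ht0 v (s j) ≠ 0)
    {M : ℕ} (heM : e + 1 ≤ M) {f : F} (hf : f ∈ Lm P0 ((M + e) * d)) :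
    ∃ a : J → F, (∀ j, a j ∈ Lm P0 (M * d)) ∧ f = ∑ j, ((s j : Lm P0 (e * d)) : F) * a j := by
  classical
  have H := lHyp_of_isGen hx
  obtain ⟨j0, hj0⟩ := hnz P0
  have h1 : ((s j0 : Lm P0 (e * d)) : F) ≠ 0 := ne_zero_of_ev_ne_zero H P0 _ ht0 P0 _ hj0
  have hZ : {v : Place K F | ev H P0 (e * d) ht0 v (s j0) = 0}.Finite :=
    finite_zeros H P0 ht0 (e * d) h1
  obtain ⟨c, hc⟩ := exists_generic _ hZ (fun v j => ev H P0 (e * d) ht0 v (s j)) (fun v _ => by
    obtain ⟨j, hj⟩ := hnz v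
    exact fun h0 => hj (congrFun h0 j))
  have hG2ev : ∀ v, ev H P0 (e * d) ht0 v (∑ j, c j • s j) =
      ∑ j, c j * ev H P0 (e * d) ht0 v (s j) := by
    intro v
    rw [map_sum]
    refine Finset.sum_congr rfl fun j _ => ?_
    rw [map_smul, smul_eq_mul]
  have hG2F : ((∑ j, c j • s j : Lm P0 (e * d)) : F) =
      ∑ j, c j • ((s j : Lm P0 (e * d)) : F) := by
    rw [Submodule.coe_sum]
    rfl
  by_cases hG2 : ((∑ j, c j • s j : Lm P0 (e * d)) : F) = 0
  · -- `s j0` has no zeros at all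
    have hnoz : ∀ v, ev H P0 (e * d) ht0 v (s j0) ≠ 0 := by
      intro v hv
      have h3 := hc v hv
      rw [← hG2ev] at h3
      apply h3
      have : (∑ j, c j • s j : Lm P0 (e * d)) = 0 := Subtype.ext hG2
      rw [this, map_zero]
    refine ⟨fun j => if j = j0 then f * ((s j0 : Lm P0 (e * d)) : F)⁻¹ else 0, ?_, ?_⟩
    · intro j
      dsimp only
      by_cases hj : j = j0
      · rw [if_pos hj]
        rcases eq_or_ne f 0 with rfl | hf0
        · rw [zero_mul]; exact zero_mem _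
        rw [Lm, mem_L_iff (mul_ne_zero hf0 (inv_ne_zero h1))]
        intro v
        have hfv := (mem_L_iff hf0).mp hf v
        have h4 := (ev_ne_zero_iff H P0 (e * d) ht0 v (s j0) h1).mp (hnoz v)
        rw [mP_mul] at hfv h4 ⊢
        rw [v.ord_mul hf0 (inv_ne_zero h1), v.ord_inv]
        push_cast at hfv ⊢
        linarith
      · rw [if_neg hj]; exact zero_mem _
    · dsimp only
      rw [Finset.sum_eq_single j0]
      · rw [if_pos rfl, mul_comm, mul_assoc, inv_mul_cancel₀ h1, mul_one]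
      · intro j _ hj; rw [if_neg hj, mul_zero]
      · intro h; exact absurd (Finset.mem_univ j0) h
  · have hcz : ∀ v : Place K F, ev (lHyp_of_isGen hx) P0 (e * d) ht0 v (s j0) ≠ 0 ∨
        ev (lHyp_of_isGen hx) P0 (e * d) ht0 v (∑ j, c j • s j) ≠ 0 := by
      intro v
      by_cases hv : ev H P0 (e * d) ht0 v (s j0) = 0
      · right
        have := hc v hv
        rwa [← hG2ev] at this
      · left; exact hv
    obtain ⟨a, ha, a', ha', hfa⟩ := pencil hx P0 ht0 hd heM (s j0) _ h1 hG2 hcz hf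
    refine ⟨fun j => c j • a' + (if j = j0 then a else 0), ?_, ?_⟩
    · intro j
      dsimp only
      refine Submodule.add_mem _ (Submodule.smul_mem _ _ ha') ?_
      by_cases hj : j = j0
      · rw [if_pos hj]; exact ha
      · rw [if_neg hj]; exact zero_mem _
    · dsimp only
      rw [hfa, hG2F]
      simp only [mul_add, Finset.sum_add_distrib]
      rw [add_comm]
      congr 1
      · rw [Finset.sum_mul]
        refine Finset.sum_congr rfl fun j _ => ?_
        rw [smul_mul_assoc, mul_smul_comm]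
      · rw [Finset.sum_eq_single j0]
        · rw [if_pos rfl]
        · intro j _ hj; rw [if_neg hj, mul_zero]
        · intro h; exact absurd (Finset.mem_univ j0) h

/-- **Curve Nullstellensatz, function-field form**: forms `p_j` of degree `e` without common zero
on the curve; then `X_k ^ (M+e) ≡ Σ_j q_(k,j) p_j` modulo the ideal of the curve, with `q_(k,j)`
homogeneous of degree `M`. -/
theorem exists_certificate_formFn (hx : IsGen K x) (P0 : Place K F) {d : ℕ} {t0 : F}
    (ht0 : P0.ord t0 = 1) (hd : 4 * (genus K F : ℤ) ≤ d) {n : ℕ}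
    (b : Module.Basis (Fin n) K (Lm P0 d)) {J : Type*} [Fintype J] {e : ℕ}
    (p : J → MvPolynomial (Fin n) K) (hp : ∀ j, (p j).IsHomogeneous e)
    (hnz : ∀ v : Place K F, ∃ j,
      MvPolynomial.eval (pt (lHyp_of_isGen hx) P0 d ht0 b v) (p j) ≠ 0) :
    ∃ (M : ℕ) (q : Fin n × J → MvPolynomial (Fin n) K), (∀ a, (q a).IsHomogeneous M) ∧
      ∀ k : Fin n, formFn P0 d b (∑ j, q (k, j) * p j) = ((b k : Lm P0 d) : F) ^ (M + e) := by
  classical
  have H := lHyp_of_isGen hx
  have hg0 : (0 : ℤ) ≤ genus K F := by positivity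
  have hd2 : 2 * (genus K F : ℤ) ≤ d := by linarith
  let s : J → Lm P0 (e * d) := fun j => ⟨formFn P0 d b (p j), formFn_mem P0 d b (hp j)⟩
  have hnz' : ∀ v : Place K F, ∃ j, ev (lHyp_of_isGen hx) P0 (e * d) ht0 v (s j) ≠ 0 := by
    intro v
    obtain ⟨j, hj⟩ := hnz v
    refine ⟨j, ?_⟩
    rwa [eval_pt (lHyp_of_isGen hx) P0 d ht0 b (hp j) v] at hj
  have hfk : ∀ k : Fin n, ((b k : Lm P0 d) : F) ^ (e + 1 + e) ∈ Lm P0 ((e + 1 + e) * d) :=
    fun k => pow_mem_Lm P0 (b k).2 _
  have hdec := fun k => exists_section_decomp hx P0 ht0 hd2 s hnz' (M := e + 1) le_rfl (hfk k)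
  choose a ha hfa using hdec
  have hq := fun kj : Fin n × J => exists_form hx P0 hd b (ha kj.1 kj.2)
  choose q hq1 hq2 using hq
  refine ⟨e + 1, q, hq1, fun k => ?_⟩
  rw [map_sum, hfa k]
  refine Finset.sum_congr rfl fun j _ => ?_
  rw [map_mul, hq2 (k, j), mul_comm]

/-- **Curve Nullstellensatz** in the shape of Mathlib's `Height.logHeight_eval_ge`. -/
theorem exists_certificate (hx : IsGen K x) (P0 : Place K F) {d : ℕ} {t0 : F}
    (ht0 : P0.ord t0 = 1) (hd : 4 * (genus K F : ℤ) ≤ d) {n : ℕ}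
    (b : Module.Basis (Fin n) K (Lm P0 d)) {J : Type*} [Fintype J] {e : ℕ}
    (p : J → MvPolynomial (Fin n) K) (hp : ∀ j, (p j).IsHomogeneous e)
    (hnz : ∀ v : Place K F, ∃ j,
      MvPolynomial.eval (pt (lHyp_of_isGen hx) P0 d ht0 b v) (p j) ≠ 0) :
    ∃ (M : ℕ) (q : Fin n × J → MvPolynomial (Fin n) K), (∀ a, (q a).IsHomogeneous M) ∧
      ∀ (v : Place K F) (k : Fin n),
        ∑ j, MvPolynomial.eval (pt (lHyp_of_isGen hx) P0 d ht0 b v) (q (k, j)) *
          MvPolynomial.eval (pt (lHyp_of_isGen hx) P0 d ht0 b v) (p j) =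
        (pt (lHyp_of_isGen hx) P0 d ht0 b v k) ^ (M + e) := by
  obtain ⟨M, q, hq, hid⟩ := exists_certificate_formFn hx P0 ht0 hd b p hp hnz
  refine ⟨M, q, hq, fun v k => ?_⟩
  have hhom : (∑ j, q (k, j) * p j - MvPolynomial.X k ^ (M + e)).IsHomogeneous (M + e) :=
    (MvPolynomial.IsHomogeneous.sum _ _ _ (fun j _ => (hq (k, j)).mul (hp j))).sub
      (MvPolynomial.isHomogeneous_X_pow k (M + e))
  have h0 : formFn P0 d b (∑ j, q (k, j) * p j - MvPolynomial.X k ^ (M + e)) = 0 := by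
    rw [map_sub, hid k, map_pow, formFn_X, sub_self]
  have h1 := eval_pt_eq_zero_of_formFn_eq_zero (lHyp_of_isGen hx) P0 d ht0 b hhom h0 v
  rw [map_sub, map_sum, map_pow, MvPolynomial.eval_X, sub_eq_zero] at h1
  rw [← h1]
  refine Finset.sum_congr rfl fun j _ => ?_
  rw [map_mul]

end RR

end Fermat.Agent.MW.EMB.Cert6
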