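/-
PROGRAMME MW (S17), block EMB (helper6).  `Lead6`: LEADING COEFFICIENTS at a place.

Setting: `H : LSpace.LHyp K F`, `v` a place, `t` a uniformizer at `v` (`v.ord t = 1`).

* `lc H v t f := valF H v (f / t ^ (v.ord f))`, the leading coefficient of `f` at `v` w.r.t. `t`;
  `lc_zero`, `lc_ne_zero`, `lc_mul`, `lc_inv`, `lc_div`, `lc_pow`, `lc_zpow`, `lc_algebraMap`,
  `lc_one`, `lc_self`, `lc_smul`, `lc_neg`, `lc_eq_valF` (units), `lc_eq_valF_div_pow`,
  `ord_sub_lc_mul` (`f = lc · t^m + higher order`), `lc_add_of_lt`, `lc_change` (other uniformizer);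
* sections of `O(d·P0)`: `lcSec H P0 d t0 v t s := lc H v t (triv P0 d t0 v * s)`;
  `lcSec_eq_ev` (order 0), `lcSec_eq_dev` (order 1), `lcSec_ne_zero`, `lcSec_mul`, `triv_add`.
-/
import Mathlib
import Fermat.Agent.MW.EMB.Tangent6

set_option autoImplicit false
set_option linter.unusedSectionVars false

open AlgebraicCurve

namespace Fermat.Agent.MW.EMB.Lead6

open Fermat.Agent.X0.FF Fermat.Agent.RR.LSpace
open Fermat.Agent.MW.EMB.Value6 Fermat.Agent.MW.EMB.OnePoint6 Fermat.Agent.MW.EMB.Coord6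
open Fermat.Agent.MW.EMB.Tangent6

variable {K F : Type*} [Field K] [Field F] [Algebra K F]

/-- The leading coefficient of `f` at `v` with respect to the uniformizer `t`. -/
noncomputable def lc (H : LHyp K F) (v : Place K F) (t f : F) : K :=
  valF H v (f / t ^ (v.ord f))

theorem ne_zero_of_ord_eq_one {v : Place K F} {t : F} (ht : v.ord t = 1) : t ≠ 0 := by
  rintro rfl; simp at ht

theorem ord_div_zpow (v : Place K F) {t : F} (ht : v.ord t = 1) {f : F} (hf : f ≠ 0) (n : ℤ) :
    v.ord (f / t ^ n) = v.ord f - n := by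
  have ht0 := ne_zero_of_ord_eq_one ht
  rw [div_eq_mul_inv, v.ord_mul hf (inv_ne_zero (zpow_ne_zero _ ht0)), v.ord_inv, v.ord_zpow, ht]
  ring

theorem ord_div_zpow_self (v : Place K F) {t : F} (ht : v.ord t = 1) {f : F} (hf : f ≠ 0) :
    v.ord (f / t ^ (v.ord f)) = 0 := by
  rw [ord_div_zpow v ht hf, sub_self]

theorem div_zpow_mem (v : Place K F) {t : F} (ht : v.ord t = 1) (f : F) :
    f / t ^ (v.ord f) ∈ v.toValuationSubring := by
  rcases eq_or_ne f 0 with rfl | hf
  · rw [zero_div]; exact zero_mem _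
  · exact ffp_mem_of_ord_nonneg v (by rw [ord_div_zpow_self v ht hf])

@[simp] theorem lc_zero (H : LHyp K F) (v : Place K F) (t : F) : lc H v t 0 = 0 := by
  rw [lc, zero_div, valF_zero]

theorem lc_ne_zero (H : LHyp K F) (v : Place K F) {t : F} (ht : v.ord t = 1) {f : F}
    (hf : f ≠ 0) : lc H v t f ≠ 0 := by
  have ht0 := ne_zero_of_ord_eq_one ht
  exact valF_ne_zero_of_ord_eq_zero H v (div_ne_zero hf (zpow_ne_zero _ ht0))
    (ord_div_zpow_self v ht hf)

theorem lc_eq_zero_iff (H : LHyp K F) (v : Place K F) {t : F} (ht : v.ord t = 1) {f : F} :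
    lc H v t f = 0 ↔ f = 0 := by
  constructor
  · intro h; by_contra hf; exact lc_ne_zero H v ht hf h
  · rintro rfl; exact lc_zero H v t

theorem lc_mul (H : LHyp K F) (v : Place K F) {t : F} (ht : v.ord t = 1) (f g : F) :
    lc H v t (f * g) = lc H v t f * lc H v t g := by
  have ht0 := ne_zero_of_ord_eq_one ht
  rcases eq_or_ne f 0 with rfl | hf
  · simp
  rcases eq_or_ne g 0 with rfl | hg
  · simp
  rw [lc, lc, lc, ← valF_mul H v (div_zpow_mem v ht f) (div_zpow_mem v ht g), v.ord_mul hf hg,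
    zpow_add₀ ht0]
  congr 1
  field_simp

theorem lc_eq_valF (H : LHyp K F) (v : Place K F) (t : F) {f : F} (h : v.ord f = 0) :
    lc H v t f = valF H v f := by
  rw [lc, h, zpow_zero, div_one]

@[simp] theorem lc_algebraMap (H : LHyp K F) (v : Place K F) (t : F) (c : K) :
    lc H v t (algebraMap K F c) = c := by
  rw [lc_eq_valF H v t (ord_algebraMap v c), valF_algebraMap]

@[simp] theorem lc_one (H : LHyp K F) (v : Place K F) (t : F) : lc H v t 1 = 1 := by
  have := lc_algebraMap H v t (1 : K)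
  rwa [map_one] at this

theorem lc_self (H : LHyp K F) (v : Place K F) {t : F} (ht : v.ord t = 1) : lc H v t t = 1 := by
  have ht0 := ne_zero_of_ord_eq_one ht
  rw [lc, ht, zpow_one, div_self ht0, valF_one]

theorem lc_smul (H : LHyp K F) (v : Place K F) {t : F} (ht : v.ord t = 1) (c : K) (f : F) :
    lc H v t (c • f) = c * lc H v t f := by
  rw [Algebra.smul_def, lc_mul H v ht, lc_algebraMap]

theorem lc_neg (H : LHyp K F) (v : Place K F) {t : F} (ht : v.ord t = 1) (f : F) :
    lc H v t (-f) = -lc H v t f := by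
  have : -f = (-1 : K) • f := by simp
  rw [this, lc_smul H v ht]; ring

theorem lc_inv (H : LHyp K F) (v : Place K F) {t : F} (ht : v.ord t = 1) (f : F) :
    lc H v t f⁻¹ = (lc H v t f)⁻¹ := by
  rcases eq_or_ne f 0 with rfl | hf
  · simp
  have h1 : lc H v t f⁻¹ * lc H v t f = 1 := by
    rw [← lc_mul H v ht, inv_mul_cancel₀ hf, lc_one]
  exact eq_inv_of_mul_eq_one_left h1

theorem lc_div (H : LHyp K F) (v : Place K F) {t : F} (ht : v.ord t = 1) (f g : F) :
    lc H v t (f / g) = lc H v t f / lc H v t g := by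
  rw [div_eq_mul_inv, lc_mul H v ht, lc_inv H v ht, div_eq_mul_inv]

theorem lc_pow (H : LHyp K F) (v : Place K F) {t : F} (ht : v.ord t = 1) (f : F) (n : ℕ) :
    lc H v t (f ^ n) = lc H v t f ^ n := by
  induction n with
  | zero => simp
  | succ n ih => rw [pow_succ, lc_mul H v ht, ih, pow_succ]

theorem lc_zpow (H : LHyp K F) (v : Place K F) {t : F} (ht : v.ord t = 1) (f : F) (n : ℤ) :
    lc H v t (f ^ n) = lc H v t f ^ n := by
  cases n with
  | ofNat n => simpa using lc_pow H v ht f n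
  | negSucc n =>
    rw [zpow_negSucc, zpow_negSucc, lc_inv H v ht, lc_pow H v ht]

/-- For `ord f = m ≥ 0`: the leading coefficient is the value of `f / t^m`. -/
theorem lc_eq_valF_div_pow (H : LHyp K F) (v : Place K F) (t : F) {f : F} {m : ℕ}
    (hm : v.ord f = m) : lc H v t f = valF H v (f / t ^ m) := by
  rw [lc, hm, zpow_natCast]

/-- The expansion `f = lc · t ^ ord f + (higher order)`. -/
theorem ord_sub_lc_mul (H : LHyp K F) (v : Place K F) {t : F} (ht : v.ord t = 1) {f : F}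
    (hne : f ≠ algebraMap K F (lc H v t f) * t ^ (v.ord f)) :
    v.ord f < v.ord (f - algebraMap K F (lc H v t f) * t ^ (v.ord f)) := by
  have ht0 := ne_zero_of_ord_eq_one ht
  have hz : t ^ (v.ord f) ≠ 0 := zpow_ne_zero _ ht0
  have hne' : f / t ^ (v.ord f) ≠ algebraMap K F (valF H v (f / t ^ (v.ord f))) := by
    intro h
    apply hne
    rw [lc, ← h, div_mul_cancel₀ _ hz]
  have hpos := ord_sub_valF_pos H v (div_zpow_mem v ht f) hne'
  have h2 : f - algebraMap K F (lc H v t f) * t ^ (v.ord f) =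
      (f / t ^ (v.ord f) - algebraMap K F (valF H v (f / t ^ (v.ord f)))) * t ^ (v.ord f) := by
    rw [lc, sub_mul, div_mul_cancel₀ _ hz]
  rw [h2, v.ord_mul (sub_ne_zero.mpr hne') hz, v.ord_zpow, ht]
  linarith

/-- The leading coefficient only depends on the lowest-order term. -/
theorem lc_add_of_lt (H : LHyp K F) (v : Place K F) {t : F} (ht : v.ord t = 1) {f g : F}
    (hf : f ≠ 0) (h : v.ord f < v.ord g) : lc H v t (f + g) = lc H v t f := by
  have ht0 := ne_zero_of_ord_eq_one ht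
  rcases eq_or_ne g 0 with rfl | hg
  · rw [add_zero]
  have hord : v.ord (f + g) = v.ord f := ord_add_eq_of_lt v hf h
  have hz : t ^ (v.ord f) ≠ 0 := zpow_ne_zero _ ht0
  rw [lc, hord, add_div]
  have hgpos : 0 < v.ord (g / t ^ (v.ord f)) := by
    rw [ord_div_zpow v ht hg]; omega
  have hgm : g / t ^ (v.ord f) ∈ v.toValuationSubring := ffp_mem_of_ord_nonneg v hgpos.le
  rw [valF_add H v (div_zpow_mem v ht f) hgm,
    (valF_eq_zero_iff H v hgm).mpr (Or.inr hgpos), add_zero, lc]

/-- Change of uniformizer. -/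
theorem lc_change (H : LHyp K F) (v : Place K F) {t t' : F} (ht : v.ord t = 1)
    (ht' : v.ord t' = 1) (f : F) :
    lc H v t' f = lc H v t f * (lc H v t' t) ^ (v.ord f) := by
  have ht0 := ne_zero_of_ord_eq_one ht
  have ht0' := ne_zero_of_ord_eq_one ht'
  rcases eq_or_ne f 0 with rfl | hf
  · simp
  have h1 : f / t' ^ (v.ord f) = (f / t ^ (v.ord f)) * (t / t') ^ (v.ord f) := by
    rw [div_zpow]; field_simp
  have hu : v.ord (t / t') = 0 := by
    rw [div_eq_mul_inv, v.ord_mul ht0 (inv_ne_zero ht0'), v.ord_inv, ht, ht']; ring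
  have hum : (t / t') ^ (v.ord f) ∈ v.toValuationSubring :=
    ffp_mem_of_ord_nonneg v (by rw [v.ord_zpow, hu, mul_zero])
  have h2 : lc H v t' t = valF H v (t / t') := by
    rw [lc, ht, zpow_one]
  have h3 : valF H v ((t / t') ^ (v.ord f)) = (valF H v (t / t')) ^ (v.ord f) := by
    have := lc_zpow H v ht' (t / t') (v.ord f)
    rwa [lc_eq_valF H v t' hu, lc_eq_valF H v t' (by rw [v.ord_zpow, hu, mul_zero])] at this
  rw [lc, h1, valF_mul H v (div_zpow_mem v ht f) hum, h3, h2, lc]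

/-! ### Sections of `O(d·P0)` -/

theorem triv_add (P0 : Place K F) (a b : ℕ) (t0 : F) (v : Place K F) :
    triv P0 (a + b) t0 v = triv P0 a t0 v * triv P0 b t0 v := by
  by_cases hv : v = P0
  · subst hv; rw [triv_self, triv_self, triv_self, pow_add]
  · rw [triv_of_ne P0 _ t0 hv, triv_of_ne P0 _ t0 hv, triv_of_ne P0 _ t0 hv, one_mul]

/-- The leading coefficient at `v` of the section `s` of `O(d·P0)` (trivialised by `triv`). -/
noncomputable def lcSec (H : LHyp K F) (P0 : Place K F) (d : ℕ) (t0 : F) (v : Place K F)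
    (t s : F) : K :=
  lc H v t (triv P0 d t0 v * s)

theorem lcSec_ne_zero (H : LHyp K F) (P0 : Place K F) (d : ℕ) {t0 : F} (ht0 : P0.ord t0 = 1)
    (v : Place K F) {t : F} (ht : v.ord t = 1) {s : F} (hs : s ≠ 0) :
    lcSec H P0 d t0 v t s ≠ 0 :=
  lc_ne_zero H v ht (mul_ne_zero (triv_ne_zero P0 d ht0 v) hs)

theorem lcSec_mul (H : LHyp K F) (P0 : Place K F) (a b : ℕ) (t0 : F) (v : Place K F) {t : F}
    (ht : v.ord t = 1) (s s' : F) :
    lcSec H P0 (a + b) t0 v t (s * s') = lcSec H P0 a t0 v t s * lcSec H P0 b t0 v t s' := by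
  rw [lcSec, lcSec, lcSec, ← lc_mul H v ht, triv_add]
  congr 1; ring

theorem lcSec_smul (H : LHyp K F) (P0 : Place K F) (d : ℕ) (t0 : F) (v : Place K F) {t : F}
    (ht : v.ord t = 1) (c : K) (s : F) :
    lcSec H P0 d t0 v t (c • s) = c * lcSec H P0 d t0 v t s := by
  rw [lcSec, lcSec, mul_smul_comm, lc_smul H v ht]

/-- Order `0`: the leading coefficient is the value. -/
theorem lcSec_eq_ev (H : LHyp K F) (P0 : Place K F) (d : ℕ) {t0 : F} (ht0 : P0.ord t0 = 1)
    (v : Place K F) (t : F) (s : Lm P0 d) (h : ordSec P0 d t0 v (s : F) = 0) :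
    lcSec H P0 d t0 v t (s : F) = ev H P0 d ht0 v s := by
  rw [lcSec, lc_eq_valF H v t h, ev_apply]

/-- Order `1`: the leading coefficient is the first-order coefficient. -/
theorem lcSec_eq_dev (H : LHyp K F) (P0 : Place K F) (d : ℕ) {t0 : F} (ht0 : P0.ord t0 = 1)
    (v : Place K F) {t : F} (ht : v.ord t = 1) (s : Lm P0 d)
    (h : ordSec P0 d t0 v (s : F) = 1) :
    lcSec H P0 d t0 v t (s : F) = dev H P0 d ht0 v ht s := by
  have h0 : ev H P0 d ht0 v s = 0 := by
    rw [ev_eq_zero_iff]; right; omega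
  rw [dev_eq_valF_div H P0 d ht0 v ht s h0, lcSec]
  have h1 : v.ord (triv P0 d t0 v * (s : F)) = ((1 : ℕ) : ℤ) := by
    rw [← ordSec, h]; rfl
  rw [lc_eq_valF_div_pow H v t h1, pow_one]

/-- General order `m`: the leading coefficient is the value of `triv · s / t^m`. -/
theorem lcSec_eq_valF (H : LHyp K F) (P0 : Place K F) (d : ℕ) (t0 : F)
    (v : Place K F) (t : F) (s : F) {m : ℕ} (h : ordSec P0 d t0 v s = m) :
    lcSec H P0 d t0 v t s = valF H v (triv P0 d t0 v * s / t ^ m) := by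
  rw [lcSec, lc_eq_valF_div_pow H v t (by rw [← ordSec, h])]

end Fermat.Agent.MW.EMB.Lead6
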