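/-
PROGRAMME MW (S17), block EMB, part (E6b) (helper1).  `Modular1` = the CONCRETE data of the embedding
of `X₀(N)` by `|d·P0|`: `K = Kbar = ℚbar`, `F = FF N = modularFunctionFieldBar N ⊂ ℚbar((q))`.

* `gal N σ : SemilinearAut Kbar (FF N)` : the Prelude's arithmetic Galois action (coefficientwise on
  `q`-expansions) — this is the action that defines `σ • x` on `JZero N`;
* `P0 N : Place Kbar (FF N)` : the cusp `∞`, `P0_ord : (P0 N).ord f = (f : ℚbar((q))).order`;
* `t0 N := (jF N)⁻¹`, `ord_t0 : (P0 N).ord (t0 N) = 1`;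
* `gal_smul_P0`, `gal_smul_t0`, `gal_smul_mem_Lm`;
* `IsRat N f := ∀ σ, gal N σ • f = f` (`⇔` all `q`-coefficients rational: `isRat_iff_coeff`), closed
  under the field operations;
* `ratBasis N m : Basis (Fin (finrank Kbar (Lm (P0 N) m))) Kbar (Lm (P0 N) m)` with
  `isRat_ratBasis` (Galois descent by the pivot argument `S23.FixedBasis.exists_fixed_basis`),
  `finrank_Lm_bar : 2g - 1 ≤ m → finrank = m + 1 - g`;
* RATIONAL STRUCTURE CONSTANTS: `repr_rat` (the `ratBasis`-coordinates of a rational `f ∈ L(m·P0)`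
  are rational), `repr_mul_rat` (in particular those of `ratBasis a i * ratBasis b j ∈ L((a+b)·P0)`),
  `repr_galois` (coordinates of `σ • f` are the `σ`-conjugates of the coordinates of `f`);
* EQUIVARIANCE: `pt_gal : pt (ratBasis N d) (gal N σ • v) = fun i => σ (pt (ratBasis N d) v i)`,
  `dpt_gal` (uniformizer `gal N σ • t` at `gal N σ • v`).
-/
import Mathlib
import Fermat.Agent.MW.EMB.GalVal1
import Fermat.Agent.X0.LaurentPlace
import Fermat.Agent.X0.HasCanDivInst
import Fermat.Agent.S23.FixedBasis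
import Fermat.Agent.S23.GaloisReg
import Fermat.Agent.RED.TOP.FbarFacts20

set_option autoImplicit false
set_option linter.unusedSectionVars false
set_option linter.style.haveILetI false

open AlgebraicCurve ModularCurve

namespace Fermat.Agent.MW.EMB.Modular1

open Fermat.Agent.X0 Fermat.Agent.X0.FF Fermat.Agent.RR.LSpace Fermat.Agent.RR.LHypGen
open Fermat.Agent.MW.EMB.Value6 Fermat.Agent.MW.EMB.OnePoint6 Fermat.Agent.MW.EMB.Coord6
open Fermat.Agent.MW.EMB.Tangent6 Fermat.Agent.MW.EMB.Proj6 Fermat.Agent.MW.EMB.GalVal1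
open Fermat.Agent.RED.TOP.FbarFacts20

variable (N : ℕ) [NeZero N]

/-- The absolute Galois group of `ℚ`. -/
abbrev GQ : Type := Kbar ≃ₐ[ℚ] Kbar

/-- The arithmetic Galois action on `FF N` (coefficientwise on `q`-expansions). -/
noncomputable abbrev gal (σ : GQ) : SemilinearAut Kbar (FF N) :=
  arithmeticGalois (modularFunctionFieldFull N) σ

theorem coe_gal_smul (σ : GQ) (f : FF N) :
    ((gal N σ • f : FF N) : LaurentSeries Kbar) =
      coeffMap (σ : Kbar →+* Kbar) (f : LaurentSeries Kbar) := rfl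

theorem coeff_gal_smul (σ : GQ) (f : FF N) (k : ℤ) :
    ((gal N σ • f : FF N) : LaurentSeries Kbar).coeff k = σ ((f : LaurentSeries Kbar).coeff k) :=
  rfl

theorem baseAut_gal (σ : GQ) (c : Kbar) : SemilinearAut.baseAut (gal N σ) c = σ c := rfl

theorem gal_inv (σ : GQ) : (gal N σ)⁻¹ = gal N σ⁻¹ :=
  (map_inv (arithmeticGalois (modularFunctionFieldFull N)) σ).symm

/-! ### The cusp `∞` -/

/-- a coefficientwise field homomorphism preserves the order. -/
theorem order_coeffMap' {L : Type*} [Field L] (φ : L →+* L) (x : LaurentSeries L) :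
    (coeffMap φ x).order = x.order := by
  by_cases hx : x = 0
  · rw [hx, map_zero]
  have hy : coeffMap φ x ≠ 0 := by
    intro h0
    apply hx
    ext n
    have := congrArg (fun s => HahnSeries.coeff s n) h0
    simp only [coeffMap_coeff, HahnSeries.coeff_zero] at this
    exact (map_eq_zero φ).mp this
  apply le_antisymm
  · apply HahnSeries.order_le_of_coeff_ne_zero
    rw [coeffMap_coeff]
    exact (map_ne_zero φ).mpr (fun h => hx (HahnSeries.coeff_order_eq_zero.mp h))
  · apply HahnSeries.order_le_of_coeff_ne_zero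
    have : (coeffMap φ x).coeff (coeffMap φ x).order ≠ 0 :=
      fun h => hy (HahnSeries.coeff_order_eq_zero.mp h)
    rw [coeffMap_coeff] at this
    exact (map_ne_zero φ).mp this

/-- The inclusion `FF N → ℚbar((q))`. -/
noncomputable def incl : FF N →+* LaurentSeries Kbar :=
  algebraMap (FF N) (LaurentSeries Kbar)

theorem incl_apply (f : FF N) : incl N f = (f : LaurentSeries Kbar) := rfl

theorem incl_algebraMap (c : Kbar) : incl N (algebraMap Kbar (FF N) c) = HahnSeries.C c := by
  show algebraMap Kbar (LaurentSeries Kbar) c = HahnSeries.C c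
  rw [algebraMap_laurentSeries_eq_single]
  rfl

theorem coe_jF : ((jF N : FF N) : LaurentSeries Kbar) = jqK := by
  show coeffEmb Kbar (qExpand ℚ 1 jq) = jqK
  rw [qExpand_one_apply]
  rfl

theorem order_jqK : (jqK : LaurentSeries Kbar).order = -1 := by
  have h1 : jqK.coeff (-1) = 1 := by
    unfold jqK
    rw [coeffEmb_coeff, coeff_jq_neg_one, map_one]
  have hne : jqK ≠ 0 := by
    intro h
    rw [h] at h1
    simp at h1
  apply le_antisymm
  · exact HahnSeries.order_le_of_coeff_ne_zero (by rw [h1]; exact one_ne_zero)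
  · rw [HahnSeries.le_order_iff_forall hne]
    intro k hk
    unfold jqK
    rw [coeffEmb_coeff, coeff_jq_of_lt hk, map_zero]

theorem order_jF : (incl N (jF N)).order = -1 := by
  rw [incl_apply, coe_jF]
  exact order_jqK

theorem jF_ne_zero' : jF N ≠ 0 := by
  intro h
  have := order_jF N
  rw [h, map_zero, HahnSeries.order_zero] at this
  omega

theorem incl_nontrivial : ∃ f : FF N, f ≠ 0 ∧ (incl N f).order ≠ 0 :=
  ⟨jF N, jF_ne_zero' N, by rw [order_jF]; omega⟩

/-- **The cusp `∞`** of `X₀(N)`: the place of the `q`-order. -/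
noncomputable def P0 : Place Kbar (FF N) :=
  LaurentPlace.embPlace (incl N) (incl_algebraMap N) (incl_nontrivial N)

/-- The order at the cusp `∞` is the `q`-order. -/
theorem P0_ord {f : FF N} (hf : f ≠ 0) : (P0 N).ord f = (f : LaurentSeries Kbar).order := by
  obtain ⟨m, hm, hspec⟩ :=
    LaurentPlace.embPlace_spec (incl N) (incl_algebraMap N) (incl_nontrivial N)
  have h1 := hspec (jF N) (jF_ne_zero' N)
  rw [order_jF] at h1
  have hdvd : (m : ℤ) ∣ 1 := ⟨-(P0 N).ord (jF N), by rw [P0]; linarith⟩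
  have hm1 : (m : ℤ) = 1 := Int.eq_one_of_dvd_one (by positivity) hdvd
  have h2 := hspec f hf
  rw [hm1, one_mul] at h2
  exact h2.symm

/-- The uniformizer `1 / j` at the cusp `∞`. -/
noncomputable def t0 : FF N := (jF N)⁻¹

theorem ord_t0 : (P0 N).ord (t0 N) = 1 := by
  rw [t0, Place.ord_inv, P0_ord N (jF_ne_zero' N)]
  have := order_jF N
  rw [incl_apply] at this
  rw [this]; norm_num

theorem gal_smul_jF (σ : GQ) : gal N σ • jF N = jF N :=
  Fermat.Agent.S23.GaloisReg.arithmeticGalois_smul_jF N σ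

theorem gal_smul_t0 (σ : GQ) : gal N σ • t0 N = t0 N := by
  rw [t0, smul_inv'', gal_smul_jF]

/-- The cusp `∞` is fixed by the arithmetic Galois action. -/
theorem gal_smul_P0 (σ : GQ) : gal N σ • P0 N = P0 N := by
  refine LaurentPlace.eq_embPlace_of_spec (incl N) (incl_algebraMap N) (incl_nontrivial N)
    (gal N σ • P0 N) (m := 1) one_pos fun f hf => ?_
  rw [Nat.cast_one, one_mul, ord_smul_place, gal_inv]
  have hf' : gal N σ⁻¹ • f ≠ 0 := fun h => hf ((smul_eq_zero_iff _ f).mp h)
  rw [P0_ord N hf', coe_gal_smul, order_coeffMap', incl_apply]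

theorem gal_smul_mem_Lm (σ : GQ) {m : ℕ} {f : FF N} (hf : f ∈ Lm (P0 N) m) :
    gal N σ • f ∈ Lm (P0 N) m :=
  smul_mem_Lm (gal N σ) (gal_smul_P0 N σ) hf

/-! ### Rational functions (`q`-expansion with rational coefficients) -/

/-- `f ∈ FF N` is RATIONAL: fixed by the arithmetic Galois action. -/
def IsRat (f : FF N) : Prop := ∀ σ : GQ, gal N σ • f = f

theorem isRat_iff_coeff (f : FF N) :
    IsRat N f ↔ ∀ k : ℤ, ∃ r : ℚ, (f : LaurentSeries Kbar).coeff k = algebraMap ℚ Kbar r := by
  constructor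
  · intro h k
    apply Fermat.Agent.S23.GaloisReg.rat_of_fixed
    intro σ
    have := congrArg (fun x : FF N => (x : LaurentSeries Kbar).coeff k) (h σ)
    simpa [coeff_gal_smul] using this
  · intro h σ
    apply Subtype.ext
    rw [coe_gal_smul]
    exact Fermat.Agent.S23.GaloisReg.coeffMap_eq_self_of_rat σ _ h

theorem IsRat.mul {f f' : FF N} (hf : IsRat N f) (hf' : IsRat N f') : IsRat N (f * f') := by
  intro σ; rw [smul_mul', hf σ, hf' σ]

theorem IsRat.add {f f' : FF N} (hf : IsRat N f) (hf' : IsRat N f') : IsRat N (f + f') := by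
  intro σ; rw [smul_add, hf σ, hf' σ]

theorem IsRat.neg {f : FF N} (hf : IsRat N f) : IsRat N (-f) := by
  intro σ; rw [smul_neg, hf σ]

theorem IsRat.sub {f f' : FF N} (hf : IsRat N f) (hf' : IsRat N f') : IsRat N (f - f') := by
  rw [sub_eq_add_neg]; exact hf.add N (hf'.neg N)

theorem IsRat.inv {f : FF N} (hf : IsRat N f) : IsRat N f⁻¹ := by
  intro σ; rw [smul_inv'', hf σ]

theorem IsRat.pow {f : FF N} (hf : IsRat N f) (n : ℕ) : IsRat N (f ^ n) := by
  intro σ; rw [smul_pow', hf σ]

theorem isRat_zero : IsRat N (0 : FF N) := fun _ => smul_zero _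

theorem isRat_one : IsRat N (1 : FF N) := fun _ => smul_one _

theorem isRat_algebraMap_rat (r : ℚ) : IsRat N (algebraMap Kbar (FF N) (algebraMap ℚ Kbar r)) := by
  intro σ
  rw [SemilinearAut.smul_algebraMap, baseAut_gal, AlgEquiv.commutes]

theorem isRat_sum {ι : Type*} (s : Finset ι) (f : ι → FF N) (hf : ∀ i ∈ s, IsRat N (f i)) :
    IsRat N (∑ i ∈ s, f i) := by
  classical
  induction s using Finset.induction_on with
  | empty => simpa using isRat_zero N
  | insert a s ha ih =>
    rw [Finset.sum_insert ha]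
    exact (hf a (Finset.mem_insert_self a s)).add N
      (ih fun i hi => hf i (Finset.mem_insert_of_mem hi))

theorem isRat_jF : IsRat N (jF N) := gal_smul_jF N

theorem isRat_t0 : IsRat N (t0 N) := gal_smul_t0 N

/-! ### Rational bases of `L(m·P0)` -/

theorem finiteDimensional_Lm (m : ℕ) : FiniteDimensional Kbar (Lm (P0 N) m) :=
  Fermat.Agent.RR.LSpace.finiteDimensional_L (lHyp_of_isGen (isGen_j N)) _

/-- The coefficient map `FF N → (ℤ → ℚbar)`, linear. -/
noncomputable def coeffLin : FF N →ₗ[Kbar] (ℤ → Kbar) where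
  toFun f k := (f : LaurentSeries Kbar).coeff k
  map_add' f f' := by funext k; rfl
  map_smul' c f := by
    funext k
    show (((c • f : FF N)) : LaurentSeries Kbar).coeff k = c * (f : LaurentSeries Kbar).coeff k
    rw [Algebra.smul_def]
    show ((algebraMap Kbar (LaurentSeries Kbar) c) * (f : LaurentSeries Kbar)).coeff k = _
    rw [algebraMap_laurentSeries_eq_single]
    show (HahnSeries.C c * (f : LaurentSeries Kbar)).coeff k = _
    rw [HahnSeries.C_mul_eq_smul, HahnSeries.coeff_smul, smul_eq_mul]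

theorem coeffLin_apply (f : FF N) (k : ℤ) : coeffLin N f k = (f : LaurentSeries Kbar).coeff k :=
  rfl

theorem coeffLin_injective : Function.Injective (coeffLin N) := by
  intro f f' h
  apply Subtype.ext
  ext k
  exact congrFun h k

/-- **Galois descent**: `L(m·P0)` has a basis of rational functions. -/
theorem exists_ratBasis (m : ℕ) :
    ∃ b : Module.Basis (Fin (Module.finrank Kbar (Lm (P0 N) m))) Kbar (Lm (P0 N) m),
      ∀ i, IsRat N ((b i : Lm (P0 N) m) : FF N) := by
  classical
  haveI := finiteDimensional_Lm N m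
  -- the image of `L(m·P0)` in the space of coefficient sequences
  set V : Submodule Kbar (ℤ → Kbar) := (Lm (P0 N) m).map (coeffLin N) with hV
  let e : Lm (P0 N) m ≃ₗ[Kbar] V :=
    Submodule.equivMapOfInjective (coeffLin N) (coeffLin_injective N) (Lm (P0 N) m)
  haveI : FiniteDimensional Kbar V := LinearEquiv.finiteDimensional e
  have hrank : Module.finrank Kbar V = Module.finrank Kbar (Lm (P0 N) m) :=
    (LinearEquiv.finrank_eq e).symm
  have hstab : ∀ (σ : GQ) (v : ℤ → Kbar), v ∈ V → (fun n => σ • v n) ∈ V := by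
    rintro σ v ⟨f, hf, rfl⟩
    exact ⟨gal N σ • f, gal_smul_mem_Lm N σ hf, rfl⟩
  obtain ⟨c, hcV, hcli, hcfix⟩ := Fermat.Agent.S23.FixedBasis.exists_fixed_basis V hstab
  -- pull back to `L(m·P0)`
  have hex : ∀ i, ∃ f : Lm (P0 N) m, coeffLin N (f : FF N) = c i := by
    intro i
    obtain ⟨f, hf, hfc⟩ := hcV i
    exact ⟨⟨f, hf⟩, hfc⟩
  choose f hf using hex
  have hli : LinearIndependent Kbar f := by
    have h1 : LinearIndependent Kbar
        (((coeffLin N).comp (Lm (P0 N) m).subtype) ∘ f) := by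
      have : ((coeffLin N).comp (Lm (P0 N) m).subtype) ∘ f = c := funext fun i => hf i
      rw [this]; exact hcli
    exact LinearIndependent.of_comp _ h1
  have hrat : ∀ i, IsRat N ((f i : Lm (P0 N) m) : FF N) := by
    intro i σ
    apply coeffLin_injective N
    funext k
    rw [coeffLin_apply, coeff_gal_smul, ← coeffLin_apply, hf i]
    exact hcfix i k σ
  let f' : Fin (Module.finrank Kbar (Lm (P0 N) m)) → Lm (P0 N) m :=
    fun i => f (Fin.cast hrank.symm i)
  have hli' : LinearIndependent Kbar f' :=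
    hli.comp _ (Fin.cast_injective hrank.symm)
  refine ⟨basisOfLinearIndependentOfCardEqFinrank' f' hli' (by simp), fun i => ?_⟩
  rw [coe_basisOfLinearIndependentOfCardEqFinrank']
  exact hrat _

/-- A **rational basis** of `L(m·P0)`. -/
noncomputable def ratBasis (m : ℕ) :
    Module.Basis (Fin (Module.finrank Kbar (Lm (P0 N) m))) Kbar (Lm (P0 N) m) :=
  (exists_ratBasis N m).choose

theorem isRat_ratBasis (m : ℕ) (i : Fin (Module.finrank Kbar (Lm (P0 N) m))) :
    IsRat N ((ratBasis N m i : Lm (P0 N) m) : FF N) :=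
  (exists_ratBasis N m).choose_spec i

theorem gal_smul_ratBasis (m : ℕ) (σ : GQ) (i : Fin (Module.finrank Kbar (Lm (P0 N) m))) :
    gal N σ • ((ratBasis N m i : Lm (P0 N) m) : FF N) = ratBasis N m i :=
  isRat_ratBasis N m i σ

/-- `ℓ(m·P0) = m + 1 - g` for `m ≥ 2g - 1`. -/
theorem finrank_Lm_bar {m : ℕ}
    (hm : 2 * (@genus Kbar (FF N) _ _ _ (Fermat.Agent.X0.HasCanDivInst.hasCanonicalDivisor N) : ℤ)
      - 1 ≤ m) :
    (Module.finrank Kbar (Lm (P0 N) m) : ℤ) =
      m + 1 - @genus Kbar (FF N) _ _ _ (Fermat.Agent.X0.HasCanDivInst.hasCanonicalDivisor N) := by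
  haveI := Fermat.Agent.X0.HasCanDivInst.hasCanonicalDivisor N
  exact finrank_Lm (isGen_j N) (P0 N) hm

/-! ### Rational structure constants -/

/-- The `ratBasis`-coordinates of `σ • f` are the `σ`-conjugates of those of `f`. -/
theorem repr_galois (m : ℕ) (σ : GQ) (f : Lm (P0 N) m)
    (i : Fin (Module.finrank Kbar (Lm (P0 N) m))) :
    (ratBasis N m).repr (smulLm (gal N σ) (gal_smul_P0 N σ) m f) i =
      σ ((ratBasis N m).repr f i) :=
  repr_smulLm (gal N σ) (gal_smul_P0 N σ) (ratBasis N m) (gal_smul_ratBasis N m σ) f i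

/-- The `ratBasis`-coordinates of a rational `f ∈ L(m·P0)` are rational numbers. -/
theorem repr_rat (m : ℕ) (f : Lm (P0 N) m) (hf : IsRat N (f : FF N))
    (i : Fin (Module.finrank Kbar (Lm (P0 N) m))) :
    ∃ r : ℚ, (ratBasis N m).repr f i = algebraMap ℚ Kbar r := by
  apply Fermat.Agent.S23.GaloisReg.rat_of_fixed
  intro σ
  exact repr_fixed (gal N σ) (gal_smul_P0 N σ) (ratBasis N m) (gal_smul_ratBasis N m σ) f (hf σ) i

/-- **Rational structure constants**: the product of two members of the rational bases of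
`L(a·P0)`, `L(b·P0)` has rational coordinates in the rational basis of `L((a+b)·P0)`. -/
theorem repr_mul_rat (a b : ℕ) (i : Fin (Module.finrank Kbar (Lm (P0 N) a)))
    (j : Fin (Module.finrank Kbar (Lm (P0 N) b)))
    (k : Fin (Module.finrank Kbar (Lm (P0 N) (a + b)))) :
    ∃ r : ℚ, (ratBasis N (a + b)).repr
      ⟨((ratBasis N a i : Lm (P0 N) a) : FF N) * ((ratBasis N b j : Lm (P0 N) b) : FF N),
        mul_mem_Lm (P0 N) (ratBasis N a i).2 (ratBasis N b j).2⟩ k = algebraMap ℚ Kbar r :=
  repr_rat N (a + b) _ ((isRat_ratBasis N a i).mul N (isRat_ratBasis N b j)) k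

/-- A rational `f ∈ L(m·P0)` is a `ℚ`-combination of the rational basis. -/
theorem exists_rat_coeffs (m : ℕ) (f : Lm (P0 N) m) (hf : IsRat N (f : FF N)) :
    ∃ r : Fin (Module.finrank Kbar (Lm (P0 N) m)) → ℚ,
      (f : FF N) = ∑ i, algebraMap Kbar (FF N) (algebraMap ℚ Kbar (r i)) *
        ((ratBasis N m i : Lm (P0 N) m) : FF N) := by
  choose r hr using repr_rat N m f hf
  refine ⟨r, ?_⟩
  have h1 := congrArg (fun x : Lm (P0 N) m => (x : FF N)) ((ratBasis N m).sum_repr f)
  simp only [Submodule.coe_sum, Submodule.coe_smul, Algebra.smul_def] at h1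
  rw [← h1]
  exact Finset.sum_congr rfl fun i _ => by rw [hr i]

/-! ### Equivariance of the embedding -/

/-- **Galois equivariance of the homogeneous coordinates** w.r.t. the rational basis. -/
theorem pt_gal (d : ℕ) (σ : GQ) (v : Place Kbar (FF N)) :
    pt (lHyp_of_isGen (isGen_j N)) (P0 N) d (ord_t0 N) (ratBasis N d) (gal N σ • v) =
      fun i => σ (pt (lHyp_of_isGen (isGen_j N)) (P0 N) d (ord_t0 N) (ratBasis N d) v i) :=
  pt_smul (gal N σ) (gal_smul_P0 N σ) d (gal_smul_t0 N σ) (ratBasis N d)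
    (gal_smul_ratBasis N d σ) _ (ord_t0 N) v

/-- **Galois equivariance of the tangent coordinates** w.r.t. the rational basis. -/
theorem dpt_gal (d : ℕ) (σ : GQ) (v : Place Kbar (FF N)) {t : FF N} (ht : v.ord t = 1)
    (ht' : (gal N σ • v).ord (gal N σ • t) = 1) :
    dpt (lHyp_of_isGen (isGen_j N)) (P0 N) d (ord_t0 N) (ratBasis N d) (gal N σ • v) ht' =
      fun i => σ (dpt (lHyp_of_isGen (isGen_j N)) (P0 N) d (ord_t0 N) (ratBasis N d) v ht i) :=
  dpt_smul (gal N σ) (gal_smul_P0 N σ) d (gal_smul_t0 N σ) (ratBasis N d)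
    (gal_smul_ratBasis N d σ) _ (ord_t0 N) v ht ht'

theorem ord_gal_smul (σ : GQ) (v : Place Kbar (FF N)) (t : FF N) :
    (gal N σ • v).ord (gal N σ • t) = v.ord t :=
  SemilinearAut.ord_smul _ v t

end Fermat.Agent.MW.EMB.Modular1
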