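/-
PROGRAMME MW (S17), block EMB (helper6).  `Enum6`: ENUMERATION of an effective divisor.

* `exists_enum` : `0 ≤ D`, `deg D = d` ⟹ `∃ z : Fin d → Place K F, D = ∑ j, single (z j) 1`;
* `enumSum z k := ∑ j with j < k, single (z j) 1` (partial sums), `enumSum_zero`, `enumSum_succ`,
  `enumSum_of_le` (`d ≤ k`), `enumSum_nonneg`, `enumSum_mono`, `enumSum_le`, `degree_enumSum`,
  `enumSum_apply` (`= #{j < k | z j = v}`), `sum_single_apply`.
-/
import Mathlib
import Fermat.Agent.RR.LSpace

set_option autoImplicit false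
set_option linter.unusedSectionVars false

open AlgebraicCurve

namespace Fermat.Agent.MW.EMB.Enum6

open Fermat.Agent.X0.FF Fermat.Agent.RR.LSpace

open scoped Classical

variable {K F : Type*} [Field K] [Field F] [Algebra K F]

/-- Every effective divisor of degree `d` is a sum of `d` points. -/
theorem exists_enum (H : LHyp K F) :
    ∀ (d : ℕ) {D : Divisor K F}, 0 ≤ D → Divisor.degree D = d →
      ∃ z : Fin d → Place K F, D = ∑ j, Finsupp.single (z j) (1 : ℤ) := by
  intro d
  induction d with
  | zero =>
    intro D hD hdeg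
    refine ⟨Fin.elim0, ?_⟩
    rw [eq_zero_of_degree_eq_zero H hD (by simpa using hdeg)]
    simp
  | succ d ih =>
    intro D hD hdeg
    -- a point of `D`
    obtain ⟨v, hv⟩ : ∃ v, 0 < D v := by
      by_contra hcon
      push Not at hcon
      have h0 : D = 0 := by
        ext v
        have h1 := hcon v
        have h2 := hD v
        simp only [Finsupp.coe_zero, Pi.zero_apply] at h2 ⊢
        omega
      rw [h0, map_zero] at hdeg
      push_cast at hdeg
      omega
    have hD' : 0 ≤ D - Finsupp.single v 1 := by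
      intro w
      rw [Finsupp.sub_apply]
      simp only [Finsupp.coe_zero, Pi.zero_apply]
      by_cases hw : w = v
      · subst hw; rw [Finsupp.single_eq_same]; omega
      · rw [Finsupp.single_eq_of_ne (by exact hw)]
        have := hD w
        simp only [Finsupp.coe_zero, Pi.zero_apply] at this
        omega
    have hdeg' : Divisor.degree (D - Finsupp.single v 1) = d := by
      rw [map_sub, hdeg, degree_single H]; push_cast; ring
    obtain ⟨z, hz⟩ := ih hD' hdeg'
    refine ⟨Fin.snoc z v, ?_⟩
    rw [Fin.sum_univ_castSucc]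
    simp only [Fin.snoc_castSucc, Fin.snoc_last]
    rw [← hz]
    abel

/-- The partial sums of an enumeration. -/
noncomputable def enumSum {d : ℕ} (z : Fin d → Place K F) (k : ℕ) : Divisor K F :=
  ∑ j ∈ Finset.univ.filter (fun j : Fin d => (j : ℕ) < k), Finsupp.single (z j) (1 : ℤ)

theorem enumSum_zero {d : ℕ} (z : Fin d → Place K F) : enumSum z 0 = 0 := by
  simp [enumSum]

theorem enumSum_of_le {d : ℕ} (z : Fin d → Place K F) {k : ℕ} (hk : d ≤ k) :
    enumSum z k = ∑ j, Finsupp.single (z j) (1 : ℤ) := by
  rw [enumSum]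
  congr 1
  ext j
  simp only [Finset.mem_filter, Finset.mem_univ, true_and, iff_true]
  exact lt_of_lt_of_le j.2 hk

theorem enumSum_succ {d : ℕ} (z : Fin d → Place K F) (k : Fin d) :
    enumSum z ((k : ℕ) + 1) = enumSum z k + Finsupp.single (z k) 1 := by
  rw [enumSum, enumSum]
  have h : Finset.univ.filter (fun j : Fin d => (j : ℕ) < (k : ℕ) + 1) =
      insert k (Finset.univ.filter (fun j : Fin d => (j : ℕ) < (k : ℕ))) := by
    ext j
    simp only [Finset.mem_filter, Finset.mem_univ, true_and, Finset.mem_insert]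
    constructor
    · intro hj
      rcases Nat.lt_succ_iff_lt_or_eq.mp hj with h | h
      · exact Or.inr h
      · exact Or.inl (Fin.ext h)
    · rintro (rfl | h)
      · exact Nat.lt_succ_self _
      · exact Nat.lt_succ_of_lt h
  rw [h, Finset.sum_insert (by simp), add_comm]

theorem enumSum_apply {d : ℕ} (z : Fin d → Place K F) (k : ℕ) (v : Place K F) :
    enumSum z k v =
      ((Finset.univ.filter (fun j : Fin d => (j : ℕ) < k ∧ z j = v)).card : ℤ) := by
  rw [enumSum, Finsupp.finsetSum_apply]
  simp only [Finsupp.single_apply]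
  rw [Finset.sum_ite, Finset.sum_const_zero, add_zero, Finset.sum_const, Finset.filter_filter]
  simp

theorem sum_single_apply {d : ℕ} (z : Fin d → Place K F) (v : Place K F) :
    (∑ j, Finsupp.single (z j) (1 : ℤ)) v =
      ((Finset.univ.filter (fun j : Fin d => z j = v)).card : ℤ) := by
  rw [← enumSum_of_le z le_rfl, enumSum_apply]
  congr 2
  ext j
  simp

theorem enumSum_nonneg {d : ℕ} (z : Fin d → Place K F) (k : ℕ) : 0 ≤ enumSum z k := by
  intro v
  rw [enumSum_apply]
  simp

theorem enumSum_mono {d : ℕ} (z : Fin d → Place K F) {k k' : ℕ} (h : k ≤ k') :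
    enumSum z k ≤ enumSum z k' := by
  intro v
  rw [enumSum_apply, enumSum_apply]
  have : Finset.univ.filter (fun j : Fin d => (j : ℕ) < k ∧ z j = v) ⊆
      Finset.univ.filter (fun j : Fin d => (j : ℕ) < k' ∧ z j = v) := by
    intro j hj
    simp only [Finset.mem_filter, Finset.mem_univ, true_and] at hj ⊢
    exact ⟨lt_of_lt_of_le hj.1 h, hj.2⟩
  exact_mod_cast Finset.card_le_card this

theorem enumSum_le {d : ℕ} (z : Fin d → Place K F) (k : ℕ) :
    enumSum z k ≤ ∑ j, Finsupp.single (z j) (1 : ℤ) := by
  rw [← enumSum_of_le z (le_max_left d k)]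
  exact enumSum_mono z (le_max_right d k)

theorem degree_enumSum (H : LHyp K F) {d : ℕ} (z : Fin d → Place K F) (k : ℕ) :
    Divisor.degree (enumSum z k) = (min k d : ℕ) := by
  rw [enumSum, map_sum]
  simp only [degree_single H]
  rw [Finset.sum_const, nsmul_eq_mul, mul_one]
  congr 1
  have : Finset.univ.filter (fun j : Fin d => (j : ℕ) < k) =
      (Finset.univ.filter (fun j : Fin d => (j : ℕ) < min k d)) := by
    ext j
    simp only [Finset.mem_filter, Finset.mem_univ, true_and, lt_min_iff]
    exact ⟨fun h => ⟨h, j.2⟩, fun h => h.1⟩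
  rw [this, Fin.card_filter_val_lt]
  simp

end Fermat.Agent.MW.EMB.Enum6
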