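/-
PROGRAMME MW (S17), block EMB (helper6).  `Cone6`: the affine CONE over the embedded curve is
Zariski closed.

* `mem_vanishingIdeal_cone` : a homogeneous form in the ideal of the curve (`formFn b p = 0`) lies in
  the vanishing ideal of the cone `{lam • pt v}`;
* `cone_closed` (`4g ≤ d`) : every point of the zero locus of the vanishing ideal of the cone is `0`
  or `lam • pt v` for a place `v`.
-/
import Mathlib
import Fermat.Agent.MW.EMB.Cert6

set_option autoImplicit false
set_option linter.unusedSectionVars false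

open AlgebraicCurve

namespace Fermat.Agent.MW.EMB.Cone6

open Fermat.Agent.X0.FF Fermat.Agent.RR.LSpace Fermat.Agent.RR.LHypGen
open Fermat.Agent.MW.EMB.Value6 Fermat.Agent.MW.EMB.OnePoint6 Fermat.Agent.MW.EMB.Coord6
open Fermat.Agent.MW.EMB.Proj6 Fermat.Agent.MW.EMB.Section6 Fermat.Agent.MW.EMB.Form6
open Fermat.Agent.MW.EMB.Cert6

variable {K F : Type*} [Field K] [Field F] [Algebra K F]

/-- The affine cone over the embedded curve. -/
def cone (H : LHyp K F) (P0 : Place K F) (d : ℕ) {t0 : F} (ht0 : P0.ord t0 = 1) {n : ℕ}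
    (b : Module.Basis (Fin n) K (Lm P0 d)) : Set (Fin n → K) :=
  {Y | ∃ (v : Place K F) (lam : K), Y = lam • pt H P0 d ht0 b v}

/-- A homogeneous form in the ideal of the curve vanishes on the cone. -/
theorem mem_vanishingIdeal_cone (H : LHyp K F) (P0 : Place K F) (d : ℕ) {t0 : F}
    (ht0 : P0.ord t0 = 1) {n : ℕ} (b : Module.Basis (Fin n) K (Lm P0 d))
    {p : MvPolynomial (Fin n) K} {e : ℕ} (hp : p.IsHomogeneous e) (h0 : formFn P0 d b p = 0) :
    p ∈ MvPolynomial.vanishingIdeal K (cone H P0 d ht0 b) := by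
  rw [MvPolynomial.mem_vanishingIdeal_iff]
  rintro Y ⟨v, lam, rfl⟩
  have h1 : (lam • pt H P0 d ht0 b v) = fun i => lam * pt H P0 d ht0 b v i := by
    funext i; simp
  rw [h1, aeval_mul_of_isHomogeneous hp, MvPolynomial.aeval_eq_eval,
    eval_pt_eq_zero_of_formFn_eq_zero H P0 d ht0 b hp h0 v, mul_zero]

section RR

variable [IsAlgClosed K] [CharZero K] {x : F} [HasCanonicalDivisor (K := K) (F := F)]

/-- **The cone over the embedded curve is Zariski closed.** -/
theorem cone_closed (hx : IsGen K x) (P0 : Place K F) {d : ℕ} {t0 : F} (ht0 : P0.ord t0 = 1)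
    (hd : 4 * (genus K F : ℤ) ≤ d) {n : ℕ} (b : Module.Basis (Fin n) K (Lm P0 d))
    (Y : Fin n → K)
    (hY : Y ∈ MvPolynomial.zeroLocus K
      (MvPolynomial.vanishingIdeal K (cone (lHyp_of_isGen hx) P0 d ht0 b))) :
    Y = 0 ∨ ∃ (v : Place K F) (lam : K), Y = lam • pt (lHyp_of_isGen hx) P0 d ht0 b v := by
  have H := lHyp_of_isGen hx
  have hg0 : (0 : ℤ) ≤ genus K F := by positivity
  by_contra hcon
  push Not at hcon
  obtain ⟨hY0, hYc⟩ := hcon
  obtain ⟨i0, hi0⟩ := Function.ne_iff.mp hY0
  simp only [Pi.zero_apply] at hi0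
  -- the linear forms vanishing at `Y`
  let p : Fin n → MvPolynomial (Fin n) K := fun j =>
    MvPolynomial.C (Y i0) * MvPolynomial.X j - MvPolynomial.C (Y j) * MvPolynomial.X i0
  have hp : ∀ j, (p j).IsHomogeneous 1 := fun j =>
    (MvPolynomial.isHomogeneous_C_mul_X _ _).sub (MvPolynomial.isHomogeneous_C_mul_X _ _)
  have hpY : ∀ j, MvPolynomial.eval Y (p j) = 0 := fun j => by
    simp only [p, map_sub, map_mul, MvPolynomial.eval_C, MvPolynomial.eval_X]; ring
  have hnz : ∀ v : Place K F, ∃ j,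
      MvPolynomial.eval (pt (lHyp_of_isGen hx) P0 d ht0 b v) (p j) ≠ 0 := by
    intro v
    by_contra hall
    push Not at hall
    have hall' : ∀ j, Y i0 * pt (lHyp_of_isGen hx) P0 d ht0 b v j =
        Y j * pt (lHyp_of_isGen hx) P0 d ht0 b v i0 := fun j => by
      have := hall j
      simp only [p, map_sub, map_mul, MvPolynomial.eval_C, MvPolynomial.eval_X] at this
      exact sub_eq_zero.mp this
    have hpt0 := pt_ne_zero hx P0 ht0 b (by linarith) v
    have hμ : pt (lHyp_of_isGen hx) P0 d ht0 b v i0 ≠ 0 := by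
      intro h0
      apply hpt0
      funext j
      have := hall' j
      rw [h0, mul_zero] at this
      rcases mul_eq_zero.mp this with h | h
      · exact absurd h hi0
      · exact h
    apply hYc v (Y i0 / pt (lHyp_of_isGen hx) P0 d ht0 b v i0)
    funext j
    have := hall' j
    simp only [Pi.smul_apply, smul_eq_mul]
    field_simp
    linear_combination -this
  obtain ⟨M, q, hq, hid⟩ := exists_certificate_formFn hx P0 ht0 hd b p hp hnz
  apply hY0
  funext k
  have hhom : (∑ j, q (k, j) * p j - MvPolynomial.X k ^ (M + 1)).IsHomogeneous (M + 1) :=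
    (MvPolynomial.IsHomogeneous.sum _ _ _ (fun j _ => (hq (k, j)).mul (hp j))).sub
      (MvPolynomial.isHomogeneous_X_pow k (M + 1))
  have h0 : formFn P0 d b (∑ j, q (k, j) * p j - MvPolynomial.X k ^ (M + 1)) = 0 := by
    rw [map_sub, hid k, map_pow, formFn_X, sub_self]
  have hmem := mem_vanishingIdeal_cone (lHyp_of_isGen hx) P0 d ht0 b hhom h0
  have h1 := hY _ hmem
  rw [MvPolynomial.aeval_eq_eval, map_sub, map_sum, map_pow, MvPolynomial.eval_X] at h1
  have h2 : ∑ j, MvPolynomial.eval Y (q (k, j) * p j) = 0 :=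
    Finset.sum_eq_zero fun j _ => by rw [map_mul, hpY, mul_zero]
  rw [h2, zero_sub, neg_eq_zero] at h1
  simpa using eq_zero_of_pow_eq_zero h1

end RR

end Fermat.Agent.MW.EMB.Cone6
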